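/-
GATE-J27 (S27) / node A6 = GJ27-NORM, BRIDGE part (helper68, third seat of helper63's A6, board 5509).

**Base change of the weighted log-derivative along `τ ↦ τ ^ m` with the norm weight.**

On helper94's `ZComb` frame (`τ : Equiv.Perm X`, effective divisors `X →₀ ℕ`, weights multiplicative
on invariant pairs): the norm `Nm E = ∑_{i < m} (τ ^ i)_* E` maps `τ ^ m`-invariant divisors to
`τ`-invariant ones, multiplies degrees by `m`, and

  `Nm (O'_x) = (m / gcd (d_x, m)) • O_x`      (`O'_x` the `τ ^ m`-orbit sum, `O_x` the `τ`-orbit sum),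

hence `c (τ ^ m) (w ∘ Nm) i = c τ w (m * i)`: the log-derivative of `L_{τ^m, w ∘ Nm}` is the
`m`-th section of the log-derivative of `L_{τ, w}` (`X_mul_derivative_Lser_pow`, `hLD_pair`).
Imports only `Fermat.Agent.GJ27.ZComb`.
-/
import Fermat.Agent.GJ27.ZComb

set_option autoImplicit false

namespace Fermat.Agent.GJ27.Norm.Bridge

open Function Finset Fermat.Agent.GJ27.ZComb

variable {X : Type*} (τ : Equiv.Perm X) (m : ℕ)

/-! ### the norm of an effective divisor -/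

/-- the norm `Nm E = ∑_{i < m} (τ ^ i)_* E`. -/
noncomputable def Nm (E : X →₀ ℕ) : X →₀ ℕ :=
  ∑ i ∈ Finset.range m, Finsupp.mapDomain (⇑(τ ^ i)) E

theorem Nm_zero : Nm τ m 0 = 0 := by
  unfold Nm
  exact Finset.sum_eq_zero fun i _ => Finsupp.mapDomain_zero

theorem Nm_add (E E' : X →₀ ℕ) : Nm τ m (E + E') = Nm τ m E + Nm τ m E' := by
  unfold Nm
  rw [← Finset.sum_add_distrib]
  exact Finset.sum_congr rfl fun i _ => Finsupp.mapDomain_add

theorem Nm_apply (E : X →₀ ℕ) (y : X) :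
    Nm τ m E y = ∑ i ∈ Finset.range m, E ((τ ^ i).symm y) := by
  unfold Nm
  rw [Finsupp.finsetSum_apply]
  exact Finset.sum_congr rfl fun i _ => Finsupp.mapDomain_equiv_apply (f := τ ^ i) E y

theorem Nm_nsmul (E : X →₀ ℕ) (k : ℕ) : Nm τ m (k • E) = k • Nm τ m E := by
  induction k with
  | zero => rw [zero_smul, zero_smul, Nm_zero]
  | succ k ih => rw [succ_nsmul, succ_nsmul, Nm_add, ih]

/-- invariance in `mapDomain` form. -/
theorem isInv_iff_mapDomain (D : X →₀ ℕ) : IsInv τ D ↔ Finsupp.mapDomain (⇑τ) D = D := by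
  constructor
  · intro h
    ext y
    rw [Finsupp.mapDomain_equiv_apply (f := τ)]
    have := h (τ.symm y)
    rw [Equiv.apply_symm_apply] at this
    exact this.symm
  · intro h x
    have := DFunLike.congr_fun h (τ x)
    rw [Finsupp.mapDomain_equiv_apply (f := τ), Equiv.symm_apply_apply] at this
    exact this.symm

theorem mapDomain_pow_succ (E : X →₀ ℕ) (i : ℕ) :
    Finsupp.mapDomain (⇑(τ ^ (i + 1))) E = Finsupp.mapDomain (⇑τ) (Finsupp.mapDomain (⇑(τ ^ i)) E) := by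
  rw [pow_succ', Equiv.Perm.coe_mul, Finsupp.mapDomain_comp]

theorem mapDomain_pow_zero (E : X →₀ ℕ) : Finsupp.mapDomain (⇑(τ ^ 0)) E = E := by
  rw [pow_zero, Equiv.Perm.coe_one, Finsupp.mapDomain_id]

/-- the norm of a `τ ^ m`-invariant divisor is `τ`-invariant. -/
theorem isInv_Nm {E : X →₀ ℕ} (hE : IsInv (τ ^ m) E) : IsInv τ (Nm τ m E) := by
  rw [isInv_iff_mapDomain] at hE ⊢
  unfold Nm
  rw [Finsupp.mapDomain_finsetSum]
  have h1 : ∀ i ∈ Finset.range m,
      Finsupp.mapDomain (⇑τ) (Finsupp.mapDomain (⇑(τ ^ i)) E) =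
        Finsupp.mapDomain (⇑(τ ^ (i + 1))) E := fun i _ => (mapDomain_pow_succ τ E i).symm
  rw [Finset.sum_congr rfl h1]
  have h2 := Finset.sum_range_succ' (fun i => Finsupp.mapDomain (⇑(τ ^ i)) E) m
  have h3 := Finset.sum_range_succ (fun i => Finsupp.mapDomain (⇑(τ ^ i)) E) m
  rw [h3] at h2
  simp only [mapDomain_pow_zero, hE] at h2
  exact (add_right_cancel h2).symm

theorem degree_mapDomain (f : X → X) (E : X →₀ ℕ) :
    (Finsupp.mapDomain f E).degree = E.degree := by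
  induction E using Finsupp.induction_linear with
  | zero => rw [Finsupp.mapDomain_zero]
  | add E E' h h' => rw [Finsupp.mapDomain_add, map_add, map_add, h, h']
  | single a b => rw [Finsupp.mapDomain_single, Finsupp.degree_single, Finsupp.degree_single]

/-- the norm multiplies degrees by `m`. -/
theorem degree_Nm (E : X →₀ ℕ) : (Nm τ m E).degree = m * E.degree := by
  unfold Nm
  rw [map_sum, Finset.sum_congr rfl fun i _ => degree_mapDomain (⇑(τ ^ i)) E, Finset.sum_const,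
    Finset.card_range, smul_eq_mul]

/-! ### periods and fixed points of `τ ^ m` -/

theorem per_pow (hm : m ≠ 0) (x : X) :
    per (τ ^ m) x = per τ x / Nat.gcd (per τ x) m := by
  unfold per
  rw [Equiv.Perm.coe_pow]
  exact minimalPeriod_iterate_eq_div_gcd hm

theorem per_pow_pos (hm : m ≠ 0) {x : X} (hx : 0 < per τ x) : 0 < per (τ ^ m) x := by
  rw [per_pow τ m hm]
  exact Nat.div_pos (Nat.le_of_dvd hx (Nat.gcd_dvd_left _ _)) (Nat.gcd_pos_of_pos_left _ hx)

/-- the finiteness hypothesis of `ZComb` passes to powers. -/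
theorem hfin_pow (hfin : ∀ j, 0 < j → (fixedPoints ⇑(τ ^ j)).Finite) (hm : 0 < m) :
    ∀ j, 0 < j → (fixedPoints ⇑((τ ^ m) ^ j)).Finite := by
  intro j hj
  rw [← pow_mul]
  exact hfin (m * j) (Nat.mul_pos hm hj)

theorem fixFin_zero (hfin : ∀ j, 0 < j → (fixedPoints ⇑(τ ^ j)).Finite) :
    fixFin τ hfin 0 = ∅ := by
  unfold fixFin
  rw [dif_neg (lt_irrefl 0)]

theorem fixFin_pow (hfin : ∀ j, 0 < j → (fixedPoints ⇑(τ ^ j)).Finite)
    (hfin' : ∀ j, 0 < j → (fixedPoints ⇑((τ ^ m) ^ j)).Finite) (hm : 0 < m) (i : ℕ) :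
    fixFin (τ ^ m) hfin' i = fixFin τ hfin (m * i) := by
  rcases Nat.eq_zero_or_pos i with rfl | hi
  · rw [Nat.mul_zero, fixFin_zero, fixFin_zero]
  · ext x
    rw [mem_fixFin _ _ hi, mem_fixFin _ _ (Nat.mul_pos hm hi), ← pow_mul]

/-! ### the norm of an orbit sum -/

/-- a `τ`-invariant divisor supported on the orbit of `x` is a multiple of the orbit sum. -/
theorem eq_nsmul_orbSum {x : X} (hx : 0 < per τ x) {D : X →₀ ℕ} (hD : IsInv τ D)
    (hsupp : ∀ y, D y ≠ 0 → y ∈ orbFin τ x) : D = D x • orbSum τ x := by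
  classical
  ext y
  rw [Finsupp.smul_apply, orbSum_apply, smul_eq_mul]
  by_cases hy : y ∈ orbFin τ x
  · rw [if_pos hy, mul_one]
    obtain ⟨k, rfl⟩ := (mem_orbFin τ hx).mp hy
    exact hD.iterate k x
  · rw [if_neg hy, mul_zero]
    by_contra h
    exact hy (hsupp y h)

theorem iterate_pow_eq (k : ℕ) (x : X) : (⇑(τ ^ m))^[k] x = (⇑τ)^[m * k] x := by
  rw [Equiv.Perm.coe_pow, ← Function.iterate_mul]

/-- the `τ ^ m`-orbit of `x` lies in the `τ`-orbit. -/
theorem orbFin_pow_subset (hm : m ≠ 0) {x : X} (hx : 0 < per τ x) {z : X}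
    (hz : z ∈ orbFin (τ ^ m) x) : z ∈ orbFin τ x := by
  obtain ⟨k, rfl⟩ := (mem_orbFin (τ ^ m) (per_pow_pos τ m hm hx)).mp hz
  rw [iterate_pow_eq]
  exact (mem_orbFin τ hx).mpr ⟨m * k, rfl⟩

theorem pow_apply_mem_orbFin {x : X} (hx : 0 < per τ x) (i : ℕ) {z : X} (hz : z ∈ orbFin τ x) :
    (τ ^ i) z ∈ orbFin τ x := by
  induction i with
  | zero => simpa using hz
  | succ i ih =>
    rw [pow_succ', Equiv.Perm.mul_apply]
    exact (apply_mem_orbFin_iff τ hx).mpr ih

/-- **The norm of an orbit sum**: `Nm (O'_x) = (m / gcd (d_x, m)) • O_x`. -/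
theorem Nm_orbSum (hm : 0 < m) {x : X} (hx : 0 < per τ x) :
    Nm τ m (orbSum (τ ^ m) x) = (m / Nat.gcd (per τ x) m) • orbSum τ x := by
  classical
  have hm' : m ≠ 0 := hm.ne'
  have hx' : 0 < per (τ ^ m) x := per_pow_pos τ m hm' hx
  have hE : IsInv (τ ^ m) (orbSum (τ ^ m) x) := isInv_orbSum (τ ^ m) hx'
  have hD : IsInv τ (Nm τ m (orbSum (τ ^ m) x)) := isInv_Nm τ m hE
  have hsupp : ∀ y, Nm τ m (orbSum (τ ^ m) x) y ≠ 0 → y ∈ orbFin τ x := by
    intro y hy
    rw [Nm_apply] at hy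
    obtain ⟨i, -, hi⟩ := Finset.exists_ne_zero_of_sum_ne_zero hy
    rw [orbSum_apply] at hi
    have hz : (τ ^ i).symm y ∈ orbFin (τ ^ m) x := by
      by_contra h
      rw [if_neg h] at hi
      exact hi rfl
    have := pow_apply_mem_orbFin τ hx i (orbFin_pow_subset τ m hm' hx hz)
    rwa [Equiv.apply_symm_apply] at this
  have hDeq := eq_nsmul_orbSum τ hx hD hsupp
  -- compare degrees
  have hdeg1 : (Nm τ m (orbSum (τ ^ m) x)).degree = m * per (τ ^ m) x := by
    rw [degree_Nm, degree_orbSum]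
  have hdeg2 : (Nm τ m (orbSum (τ ^ m) x)).degree =
      Nm τ m (orbSum (τ ^ m) x) x * per τ x := by
    conv_lhs => rw [hDeq]
    rw [degree_nsmul_orbSum]
  have hval : Nm τ m (orbSum (τ ^ m) x) x = m / Nat.gcd (per τ x) m := by
    have hg : 0 < Nat.gcd (per τ x) m := Nat.gcd_pos_of_pos_left _ hx
    obtain ⟨a, ha⟩ := Nat.gcd_dvd_left (per τ x) m
    obtain ⟨b, hb⟩ := Nat.gcd_dvd_right (per τ x) m
    have h1 : per (τ ^ m) x = a := by
      rw [per_pow τ m hm']
      exact Nat.div_eq_of_eq_mul_right hg ha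
    have h2 : m / Nat.gcd (per τ x) m = b := Nat.div_eq_of_eq_mul_right hg hb
    rw [h2]
    have h3 : Nm τ m (orbSum (τ ^ m) x) x * per τ x = b * per τ x := by
      rw [← hdeg2, hdeg1, h1]
      conv_lhs => rw [hb]
      conv_rhs => rw [ha]
      ring
    exact Nat.eq_of_mul_eq_mul_right hx h3
  rw [← hval]
  exact hDeq

/-! ### base change of the log-derivative coefficients -/

section Main

variable (hfin : ∀ j, 0 < j → (fixedPoints ⇑(τ ^ j)).Finite)
variable (hfin' : ∀ j, 0 < j → (fixedPoints ⇑((τ ^ m) ^ j)).Finite)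
variable {R : Type*} [CommRing R] {w : (X →₀ ℕ) → R}

theorem hw0_Nm (hw0 : w 0 = 1) : (fun E => w (Nm τ m E)) 0 = 1 := by
  show w (Nm τ m 0) = 1
  rw [Nm_zero, hw0]

theorem hwadd_Nm (hwadd : ∀ D D', IsInv τ D → IsInv τ D' → w (D + D') = w D * w D') :
    ∀ E E', IsInv (τ ^ m) E → IsInv (τ ^ m) E' →
      (fun E => w (Nm τ m E)) (E + E') = (fun E => w (Nm τ m E)) E * (fun E => w (Nm τ m E)) E' := by
  intro E E' hE hE'
  show w (Nm τ m (E + E')) = w (Nm τ m E) * w (Nm τ m E')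
  rw [Nm_add, hwadd _ _ (isInv_Nm τ m hE) (isInv_Nm τ m hE')]

/-- **Base change of the log-derivative coefficients**:
`c (τ ^ m) (w ∘ Nm) i = c τ w (m * i)`. -/
theorem c_pow (hm : 0 < m) (hw0 : w 0 = 1)
    (hwadd : ∀ D D', IsInv τ D → IsInv τ D' → w (D + D') = w D * w D') (i : ℕ) :
    c (τ ^ m) hfin' (fun E => w (Nm τ m E)) i = c τ hfin w (m * i) := by
  have hm' : m ≠ 0 := hm.ne'
  unfold c
  rw [fixFin_pow τ m hfin hfin' hm i]
  rcases Nat.eq_zero_or_pos i with rfl | hi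
  · rw [Nat.mul_zero, fixFin_zero, Finset.sum_empty, Finset.sum_empty]
  refine Finset.sum_congr rfl fun x hxmem => ?_
  have hfix : (τ ^ (m * i)) x = x := (mem_fixFin τ hfin (Nat.mul_pos hm hi)).mp hxmem
  have hx : 0 < per τ x := per_pos_of_fixed τ (Nat.mul_pos hm hi) hfix
  have hfix' : ((τ ^ m) ^ i) x = x := by rw [← pow_mul]; exact hfix
  have hdvd' : per (τ ^ m) x ∣ i := (per_dvd_iff (τ ^ m)).mpr hfix'
  show w (Nm τ m (orbSum (τ ^ m) x)) ^ (i / per (τ ^ m) x) = _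
  rw [Nm_orbSum τ m hm hx, w_nsmul τ hw0 hwadd (isInv_orbSum τ hx), ← pow_mul]
  congr 1
  -- arithmetic of the exponents
  have hg : 0 < Nat.gcd (per τ x) m := Nat.gcd_pos_of_pos_left _ hx
  obtain ⟨a, ha⟩ := Nat.gcd_dvd_left (per τ x) m
  obtain ⟨b, hb⟩ := Nat.gcd_dvd_right (per τ x) m
  have h1 : per (τ ^ m) x = a := by
    rw [per_pow τ m hm']
    exact Nat.div_eq_of_eq_mul_right hg ha
  have h2 : m / Nat.gcd (per τ x) m = b := Nat.div_eq_of_eq_mul_right hg hb
  rw [h1] at hdvd' ⊢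
  obtain ⟨t, rfl⟩ := hdvd'
  have ha0 : 0 < a := by
    rcases Nat.eq_zero_or_pos a with h | h
    · rw [h, Nat.mul_zero] at ha
      omega
    · exact h
  rw [h2, Nat.mul_div_cancel_left t ha0]
  have h3 : m * (a * t) = per τ x * (b * t) := by
    conv_lhs => rw [hb]
    conv_rhs => rw [ha]
    ring
  rw [h3, Nat.mul_div_cancel_left (b * t) hx]

theorem Cser_pow (hm : 0 < m) (hw0 : w 0 = 1)
    (hwadd : ∀ D D', IsInv τ D → IsInv τ D' → w (D + D') = w D * w D') :
    Cser (τ ^ m) hfin' (fun E => w (Nm τ m E)) =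
      PowerSeries.mk fun i => if i = 0 then 0 else c τ hfin w (m * i) := by
  unfold Cser
  ext i
  rw [PowerSeries.coeff_mk, PowerSeries.coeff_mk, c_pow τ m hfin hfin' hm hw0 hwadd]

/-- the coefficient form: `[X^i] C_{τ^m, w ∘ Nm} = [X^{m i}] C_{τ, w}`. -/
theorem coeff_Cser_pow (hm : 0 < m) (hw0 : w 0 = 1)
    (hwadd : ∀ D D', IsInv τ D → IsInv τ D' → w (D + D') = w D * w D') (i : ℕ) :
    PowerSeries.coeff i (Cser (τ ^ m) hfin' (fun E => w (Nm τ m E))) =
      PowerSeries.coeff (m * i) (Cser τ hfin w) := by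
  rw [Cser_pow τ m hfin hfin' hm hw0 hwadd]
  unfold Cser
  rw [PowerSeries.coeff_mk, PowerSeries.coeff_mk]
  by_cases hi : i = 0
  · rw [if_pos hi, if_pos (by rw [hi, Nat.mul_zero])]
  · rw [if_neg hi, if_neg (Nat.mul_ne_zero hm.ne' hi)]

open PowerSeries in
/-- **The base-changed weighted log-derivative identity**:
`X * L_{τ^m, w ∘ Nm}' = L_{τ^m, w ∘ Nm} * ∑_{i ≥ 1} c τ w (m i) X^i`. -/
theorem X_mul_derivative_Lser_pow (hm : 0 < m) (hw0 : w 0 = 1)
    (hwadd : ∀ D D', IsInv τ D → IsInv τ D' → w (D + D') = w D * w D') :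
    (PowerSeries.X : PowerSeries R) * d⁄dX R (Lser (τ ^ m) hfin' (fun E => w (Nm τ m E))) =
      Lser (τ ^ m) hfin' (fun E => w (Nm τ m E)) *
        PowerSeries.mk fun i => if i = 0 then 0 else c τ hfin w (m * i) := by
  rw [← Cser_pow τ m hfin hfin' hm hw0 hwadd]
  exact X_mul_derivative_Lser (τ ^ m) hfin' (hw0_Nm τ m hw0) (hwadd_Nm τ m hwadd)

theorem Lser_pow_eq :
    Lser (τ ^ m) hfin' (fun E => w (Nm τ m E)) =
      PowerSeries.mk fun d => ∑ E ∈ invEffFin (τ ^ m) hfin' d, w (Nm τ m E) := rfl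

theorem Lser_eq : Lser τ hfin w = PowerSeries.mk fun d => ∑ E ∈ invEffFin τ hfin d, w E := rfl

open PowerSeries in
/-- **The (hLD) pair of board 5509**: one sequence `cs` which is the log-derivative of `L_{τ, w}` and
whose `m`-th section is the log-derivative of `L_{τ^m, w ∘ Nm}`. -/
theorem hLD_pair (hm : 0 < m) (hw0 : w 0 = 1)
    (hwadd : ∀ D D', IsInv τ D → IsInv τ D' → w (D + D') = w D * w D') :
    ∃ cs : ℕ → R,
      (PowerSeries.X : PowerSeries R) *
          d⁄dX R (PowerSeries.mk fun d => ∑ E ∈ invEffFin τ hfin d, w E) =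
        (PowerSeries.mk fun d => ∑ E ∈ invEffFin τ hfin d, w E) * PowerSeries.mk cs ∧
      (PowerSeries.X : PowerSeries R) *
          d⁄dX R (PowerSeries.mk fun d => ∑ E ∈ invEffFin (τ ^ m) hfin' d, w (Nm τ m E)) =
        (PowerSeries.mk fun d => ∑ E ∈ invEffFin (τ ^ m) hfin' d, w (Nm τ m E)) *
          PowerSeries.mk fun i => cs (m * i) := by
  refine ⟨fun j => if j = 0 then 0 else c τ hfin w j, ?_, ?_⟩
  · exact X_mul_derivative_Lser τ hfin hw0 hwadd
  · have h := X_mul_derivative_Lser_pow τ m hfin hfin' hm hw0 hwadd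
    rw [Lser_pow_eq] at h
    rw [h]
    congr 1
    ext i
    rw [PowerSeries.coeff_mk, PowerSeries.coeff_mk]
    show (if i = 0 then (0 : R) else c τ hfin w (m * i)) =
      if m * i = 0 then (0 : R) else c τ hfin w (m * i)
    by_cases hi : i = 0
    · rw [if_pos hi, if_pos (by rw [hi, Nat.mul_zero])]
    · rw [if_neg hi, if_neg (Nat.mul_ne_zero hm.ne' hi)]

end Main

end Fermat.Agent.GJ27.Norm.Bridge
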