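/-
GATE-J27 (S27) / node A6 = GJ27-NORM, FRAME part (helper68): the dictionary between the Prelude
divisor frame (`g : SemilinearAut k Ft` acting on `Place`, `Divisor`, `Pic0`) and the abstract
combinatorial frame of `GJ27/ZComb` + `GJ27/Norm/Bridge` (`τ := MulAction.toPerm g` on `X := Place k Ft`,
effective divisors `X →₀ ℕ`).  Independent of the internals of the Core of A6.

* `castZ`                 : the cast `(Place k Ft →₀ ℕ) →+ Divisor k Ft`; injective, nonnegative image,
                            degree, `natPart`;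
* `castZ_mapDomain`, `isInv_iff_smul_castZ`, `castZ_Nm` : compatibility with the action of `g`;
* `degree_eq_zero_of_mem_principal`;
* `card_filter_invEffFin` : `#{E ∈ invEffFin τ n | castZ E − D ∈ principal}` is the number of invariant
                            effective divisors linearly equivalent to `D`  (`deg D = n`);
* `hcount_of_count`       : the (hcount) input of the Core from the count of A1 + Riemann's theorem;
* `norm_surj_of_divisor_form`, `norm_surj_pow` : the conditional plug: the divisor-level conclusion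
                            of the Core + (H90: invariant classes have invariant representatives)
                            give the norm surjectivity on `Pic0` in the `(n, m)` form consumed by A8.
-/
import Mathlib
import Fermat.Prelude.Def_AlgebraicCurve_BaseChangeGalois
import Fermat.Prelude.Def_AlgebraicCurve_Repartitions
import Fermat.Agent.GJ27.Norm.Bridge

set_option autoImplicit false
set_option linter.unusedSectionVars false

noncomputable section

open AlgebraicCurve

namespace Fermat.Agent.GJ27.Norm.Frame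

open Function Fermat.Agent.GJ27.ZComb Fermat.Agent.GJ27.Norm.Bridge

variable {k Ft : Type*} [Field k] [Field Ft] [Algebra k Ft]

/-! ### the cast of effective divisors -/

/-- the cast of an effective divisor `Place k Ft →₀ ℕ` to a divisor. -/
def castZ : (Place k Ft →₀ ℕ) →+ Divisor k Ft :=
  Finsupp.mapRange.addMonoidHom (Nat.castAddMonoidHom ℤ)

theorem castZ_apply (E : Place k Ft →₀ ℕ) (v : Place k Ft) : castZ E v = (E v : ℤ) := by
  unfold castZ
  rw [Finsupp.mapRange.addMonoidHom_apply, Finsupp.mapRange_apply]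
  rfl

theorem castZ_injective : Injective (castZ (k := k) (Ft := Ft)) := by
  intro E E' h
  ext v
  have := DFunLike.congr_fun h v
  rw [castZ_apply, castZ_apply] at this
  exact_mod_cast this

theorem castZ_nonneg (E : Place k Ft →₀ ℕ) : 0 ≤ castZ E := by
  rw [Finsupp.le_def]
  intro v
  rw [castZ_apply]
  exact Int.natCast_nonneg _

theorem castZ_single (v : Place k Ft) (n : ℕ) :
    castZ (Finsupp.single v n) = Finsupp.single v (n : ℤ) := by
  ext w
  rw [castZ_apply]
  by_cases h : v = w
  · rw [h, Finsupp.single_eq_same, Finsupp.single_eq_same]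
  · rw [Finsupp.single_eq_of_ne' h, Finsupp.single_eq_of_ne' h, Nat.cast_zero]

/-- the nonnegative part of a divisor, as an effective divisor. -/
def natPart (D : Divisor k Ft) : Place k Ft →₀ ℕ := Finsupp.mapRange Int.toNat Int.toNat_zero D

theorem natPart_apply (D : Divisor k Ft) (v : Place k Ft) : natPart D v = (D v).toNat := by
  unfold natPart
  rw [Finsupp.mapRange_apply]

theorem castZ_natPart {D : Divisor k Ft} (hD : 0 ≤ D) : castZ (natPart D) = D := by
  ext v
  rw [castZ_apply, natPart_apply]
  exact Int.toNat_of_nonneg (Finsupp.le_def.mp hD v)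

theorem natPart_castZ (E : Place k Ft →₀ ℕ) : natPart (castZ E) = E := by
  ext v
  rw [natPart_apply, castZ_apply, Int.toNat_natCast]

theorem degree_castZ (hdeg : ∀ Q : Place k Ft, Q.deg = 1) (E : Place k Ft →₀ ℕ) :
    Divisor.degree (castZ E) = (E.degree : ℤ) := by
  induction E using Finsupp.induction_linear with
  | zero => rw [map_zero, map_zero, map_zero, Nat.cast_zero]
  | add E E' h h' => rw [map_add, map_add, map_add, h, h', Nat.cast_add]
  | single a b =>
    rw [castZ_single, Divisor.degree_single, Finsupp.degree_single, hdeg a, Nat.cast_one, mul_one]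

theorem castZ_mapDomain (f : Place k Ft → Place k Ft) (E : Place k Ft →₀ ℕ) :
    castZ (Finsupp.mapDomain f E) = Finsupp.mapDomain f (castZ E) := by
  unfold castZ
  rw [Finsupp.mapRange.addMonoidHom_apply, Finsupp.mapRange.addMonoidHom_apply]
  exact (Finsupp.mapDomain_mapRange f E _ _ (fun x y => map_add (Nat.castAddMonoidHom ℤ) x y)).symm

/-! ### the action of `g` -/

variable (g : SemilinearAut k Ft)

/-- the permutation of the places induced by `g` (`= Φ.perm` of `GJ27/Frob`). -/
abbrev placeTau : Equiv.Perm (Place k Ft) := MulAction.toPerm g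

theorem placeTau_pow (i : ℕ) : placeTau g ^ i = placeTau (g ^ i) :=
  (map_pow (MulAction.toPermHom (SemilinearAut k Ft) (Place k Ft)) g i).symm

theorem coe_placeTau_pow (i : ℕ) :
    (⇑(placeTau g ^ i) : Place k Ft → Place k Ft) = fun v => (g ^ i) • v := by
  rw [placeTau_pow]
  rfl

theorem mapDomain_placeTau_pow (i : ℕ) (D : Divisor k Ft) :
    Finsupp.mapDomain (⇑(placeTau g ^ i)) D = (g ^ i) • D := by
  rw [coe_placeTau_pow]
  rfl

theorem mapDomain_placeTau (D : Divisor k Ft) :
    Finsupp.mapDomain (⇑(placeTau g)) D = g • D := rfl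

theorem castZ_mapDomain_placeTau_pow (i : ℕ) (E : Place k Ft →₀ ℕ) :
    castZ (Finsupp.mapDomain (⇑(placeTau g ^ i)) E) = (g ^ i) • castZ E := by
  rw [castZ_mapDomain, mapDomain_placeTau_pow]

/-- invariance of an effective divisor, in the two vocabularies. -/
theorem isInv_iff_smul_castZ (E : Place k Ft →₀ ℕ) :
    IsInv (placeTau g) E ↔ g • castZ E = castZ E := by
  rw [isInv_iff_mapDomain, ← mapDomain_placeTau, ← castZ_mapDomain]
  exact ⟨fun h => by rw [h], fun h => castZ_injective h⟩

theorem isInv_pow_iff_smul_castZ (m : ℕ) (E : Place k Ft →₀ ℕ) :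
    IsInv (placeTau g ^ m) E ↔ (g ^ m) • castZ E = castZ E := by
  rw [placeTau_pow]
  exact isInv_iff_smul_castZ (g ^ m) E

/-- the norm of `GJ27/Norm/Bridge`, in the Prelude vocabulary. -/
theorem castZ_Nm (m : ℕ) (E : Place k Ft →₀ ℕ) :
    castZ (Nm (placeTau g) m E) = ∑ i ∈ Finset.range m, (g ^ i) • castZ E := by
  unfold Nm
  rw [map_sum]
  exact Finset.sum_congr rfl fun i _ => castZ_mapDomain_placeTau_pow g i E

theorem smul_natPart {D : Divisor k Ft} (hD : 0 ≤ D) (hgD : g • D = D) :
    IsInv (placeTau g) (natPart D) := by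
  rw [isInv_iff_smul_castZ, castZ_natPart hD, hgD]

/-! ### principal divisors have degree zero -/

theorem degree_eq_zero_of_mem_principal [HasPrincipalDivisors k Ft] {D : Divisor k Ft}
    (hD : D ∈ Divisor.principal (K := k) (F := Ft)) : Divisor.degree D = 0 := by
  obtain ⟨f, hf, hDf⟩ := hD
  obtain ⟨D', hD', hdeg⟩ := HasPrincipalDivisors.exists_divisor (K := k) f hf
  have : D = D' := Finsupp.ext fun v => by rw [hDf v, hD' v]
  rw [this, hdeg]

/-! ### the degree, when all places have degree one -/

theorem degree_eq_finsuppDegree (hdeg : ∀ Q : Place k Ft, Q.deg = 1) (D : Divisor k Ft) :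
    Divisor.degree D = Finsupp.degree D := by
  induction D using Finsupp.induction_linear with
  | zero => rw [map_zero, map_zero]
  | add D D' h h' => rw [map_add, map_add, h, h']
  | single a b => rw [Divisor.degree_single, Finsupp.degree_single, hdeg a, Nat.cast_one, mul_one]

theorem degree_eq_sum (hdeg : ∀ Q : Place k Ft, Q.deg = 1) (D : Divisor k Ft) :
    Divisor.degree D = D.sum fun _ n => n := by
  rw [degree_eq_finsuppDegree hdeg]
  rfl

/-- the divisor-level conclusion of the Core of A6, from its abstract `mapDomain` spelling on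
`X := Place k Ft`, `τ := placeTau g`, `P := Divisor.principal`. -/
theorem hcore_of_abstract (hdeg : ∀ Q : Place k Ft, Q.deg = 1) (m : ℕ)
    (h : ∀ D : Place k Ft →₀ ℤ, Finsupp.mapDomain (⇑(placeTau g)) D = D → Finsupp.degree D = 0 →
      ∃ E : Place k Ft →₀ ℤ, Finsupp.mapDomain (⇑(placeTau g ^ m)) E = E ∧ Finsupp.degree E = 0 ∧
        (∑ i ∈ Finset.range m, Finsupp.mapDomain (⇑(placeTau g ^ i)) E) - D ∈
          Divisor.principal (K := k) (F := Ft))
    (D : Divisor k Ft) (hgD : g • D = D) (hD0 : Divisor.degree D = 0) :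
    ∃ E : Divisor k Ft, (g ^ m) • E = E ∧ Divisor.degree E = 0 ∧
      (∑ i ∈ Finset.range m, (g ^ i) • E) - D ∈ Divisor.principal (K := k) (F := Ft) := by
  obtain ⟨E, hE1, hE0, hE2⟩ := h D hgD (by rw [← degree_eq_finsuppDegree hdeg]; exact hD0)
  refine ⟨E, ?_, ?_, ?_⟩
  · rw [← mapDomain_placeTau_pow]
    exact hE1
  · rw [degree_eq_finsuppDegree hdeg]
    exact hE0
  · have : ∑ i ∈ Finset.range m, (g ^ i) • E =
        ∑ i ∈ Finset.range m, Finsupp.mapDomain (⇑(placeTau g ^ i)) E :=
      Finset.sum_congr rfl fun i _ => (mapDomain_placeTau_pow g i E).symm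
    rw [this]
    exact hE2

/-! ### the count of invariant effective divisors in a class -/

section Count

variable [HasPrincipalDivisors k Ft] (hdeg : ∀ Q : Place k Ft, Q.deg = 1)
variable (hfin : ∀ j, 0 < j → (fixedPoints ⇑(placeTau g ^ j)).Finite)

include hdeg in
open Classical in
/-- the invariant effective divisors linearly equivalent to `D` (`deg D = n`), counted in the
abstract frame (`invEffFin`) and in the Prelude frame. -/
theorem card_filter_invEffFin (D : Divisor k Ft) (n : ℕ) (hn : Divisor.degree D = (n : ℤ)) :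
    ((invEffFin (placeTau g) hfin n).filter
        fun E => castZ E - D ∈ Divisor.principal (K := k) (F := Ft)).card =
      Nat.card {E : Divisor k Ft //
        0 ≤ E ∧ g • E = E ∧ E - D ∈ Divisor.principal (K := k) (F := Ft)} := by
  rw [← Nat.card_eq_finsetCard]
  refine Nat.card_congr ?_
  refine
    { toFun := fun E => ⟨castZ E.1, castZ_nonneg _, ?_, ?_⟩
      invFun := fun E => ⟨natPart E.1, ?_⟩
      left_inv := fun E => Subtype.ext (natPart_castZ _)
      right_inv := fun E => Subtype.ext (castZ_natPart E.2.1) }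
  · have h := (Finset.mem_filter.mp E.2).1
    exact (isInv_iff_smul_castZ g _).mp ((mem_invEffFin _ hfin).mp h).1
  · exact (Finset.mem_filter.mp E.2).2
  · obtain ⟨E, hE0, hgE, hED⟩ := E
    rw [Finset.mem_filter, mem_invEffFin]
    refine ⟨⟨smul_natPart g hE0 hgE, ?_⟩, ?_⟩
    · have h1 : Divisor.degree E = (n : ℤ) := by
        have := degree_eq_zero_of_mem_principal hED
        rw [map_sub, hn] at this
        linarith
      have h2 := degree_castZ hdeg (natPart E)
      rw [castZ_natPart hE0, h1] at h2
      exact_mod_cast h2.symm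
    · show castZ (natPart E) - D ∈ _
      rw [castZ_natPart hE0]
      exact hED

include hdeg in
open Classical in
/-- **(hcount) of the Core of A6** from the count of A1 and Riemann's theorem: for an invariant
divisor `D` of degree `n ≥ c`, the number of invariant effective divisors linearly equivalent to `D`
depends on `n` only. -/
theorem hcount_of_count (q gen : ℕ) (c : ℤ)
    (hcount : ∀ D : Divisor k Ft, g • D = D →
      Nat.card {E : Divisor k Ft //
          0 ≤ E ∧ g • E = E ∧ E - D ∈ Divisor.principal (K := k) (F := Ft)} =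
        (q ^ Module.finrank k (riemannRochSpace D) - 1) / (q - 1))
    (hRiem : ∀ E : Divisor k Ft, c ≤ Divisor.degree E →
      (Module.finrank k (riemannRochSpace E) : ℤ) = Divisor.degree E + 1 - gen)
    (D : Divisor k Ft) (hgD : g • D = D) (n : ℕ) (hn : Divisor.degree D = (n : ℤ))
    (hc : c ≤ (n : ℤ)) :
    ((invEffFin (placeTau g) hfin n).filter
        fun E => castZ E - D ∈ Divisor.principal (K := k) (F := Ft)).card =
      (q ^ ((n : ℤ) + 1 - gen).toNat - 1) / (q - 1) := by
  rw [card_filter_invEffFin g hdeg hfin D n hn, hcount D hgD]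
  have h := hRiem D (by rw [hn]; exact hc)
  rw [hn] at h
  have h' : Module.finrank k (riemannRochSpace D) = ((n : ℤ) + 1 - gen).toNat := by
    rw [← h, Int.toNat_natCast]
  rw [h']

end Count

/-! ### the conditional plug -/

section Plug

/-- the class of a divisor of degree zero which is fixed by `g` is fixed by `g`. -/
theorem smul_mk_eq_of_smul_eq (D : Divisor.degZero (K := k) (F := Ft))
    (h : g • (D : Divisor k Ft) = D) : g • Pic0.mk D = Pic0.mk D := by
  rw [SemilinearAut.pic0_smul_mk]
  exact congrArg Pic0.mk (Subtype.ext (by rw [SemilinearAut.coe_degZeroSMulHom, h]))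

theorem mk_eq_mk_iff (D D' : Divisor.degZero (K := k) (F := Ft)) :
    Pic0.mk D = Pic0.mk D' ↔
      (D : Divisor k Ft) - D' ∈ Divisor.principal (K := k) (F := Ft) := by
  unfold Pic0.mk
  rw [QuotientAddGroup.eq, AddSubgroup.mem_addSubgroupOf]
  have : ((-D + D' : Divisor.degZero (K := k) (F := Ft)) : Divisor k Ft) =
      -((D : Divisor k Ft) - D') := by
    push_cast
    abel
  rw [this, neg_mem_iff]

theorem sum_smul_mk (m : ℕ) (E : Divisor.degZero (K := k) (F := Ft))
    (S : Divisor.degZero (K := k) (F := Ft))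
    (hS : (S : Divisor k Ft) = ∑ i ∈ Finset.range m, (g ^ i) • (E : Divisor k Ft)) :
    ∑ i ∈ Finset.range m, (g ^ i) • Pic0.mk E = Pic0.mk S := by
  have h1 : ∀ i ∈ Finset.range m,
      (g ^ i) • Pic0.mk E = Pic0.mk (SemilinearAut.degZeroSMulHom (g ^ i) E) :=
    fun i _ => SemilinearAut.pic0_smul_mk _ _
  rw [Finset.sum_congr rfl h1]
  have h2 : ∑ i ∈ Finset.range m, Pic0.mk (SemilinearAut.degZeroSMulHom (g ^ i) E) =
      Pic0.mk (∑ i ∈ Finset.range m, SemilinearAut.degZeroSMulHom (g ^ i) E) :=
    (map_sum (QuotientAddGroup.mk'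
      ((Divisor.principal (K := k) (F := Ft)).addSubgroupOf (Divisor.degZero (K := k) (F := Ft))))
      _ _).symm
  rw [h2]
  congr 1
  apply Subtype.ext
  rw [hS, AddSubgroup.val_finsetSum]
  exact Finset.sum_congr rfl fun i _ => SemilinearAut.coe_degZeroSMulHom _ _

/-- **Conditional plug** (`n = 1`): the divisor-level conclusion of the Core of A6 and (H90) give the
surjectivity of the norm on `Pic0`. -/
theorem norm_surj_of_divisor_form (m : ℕ)
    (hcore : ∀ D : Divisor k Ft, g • D = D → Divisor.degree D = 0 →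
      ∃ E : Divisor k Ft, (g ^ m) • E = E ∧ Divisor.degree E = 0 ∧
        (∑ i ∈ Finset.range m, (g ^ i) • E) - D ∈ Divisor.principal (K := k) (F := Ft))
    (hH90 : ∀ x : Pic0 k Ft, g • x = x →
      ∃ D : Divisor.degZero (K := k) (F := Ft), g • (D : Divisor k Ft) = D ∧ Pic0.mk D = x)
    (x : Pic0 k Ft) (hx : g • x = x) :
    ∃ y : Pic0 k Ft, (g ^ m) • y = y ∧ ∑ i ∈ Finset.range m, (g ^ i) • y = x := by
  obtain ⟨D, hgD, rfl⟩ := hH90 x hx
  obtain ⟨E, hgE, hE0, hED⟩ := hcore D hgD D.2
  have hS0 : (∑ i ∈ Finset.range m, (g ^ i) • E) ∈ Divisor.degZero (K := k) (F := Ft) := by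
    refine AddSubgroup.sum_mem _ fun i _ => ?_
    exact SemilinearAut.smul_mem_degZero _ hE0
  refine ⟨Pic0.mk ⟨E, hE0⟩, smul_mk_eq_of_smul_eq (g ^ m) ⟨E, hE0⟩ hgE, ?_⟩
  rw [sum_smul_mk g m ⟨E, hE0⟩ ⟨_, hS0⟩ rfl, mk_eq_mk_iff]
  exact hED

/-- **Conditional plug**, the `(n, m)` form consumed by A8 (board 5534 §4). -/
theorem norm_surj_pow
    (hcore : ∀ n m : ℕ, 0 < n → 0 < m → ∀ D : Divisor k Ft, (g ^ n) • D = D →
      Divisor.degree D = 0 →
      ∃ E : Divisor k Ft, (g ^ (n * m)) • E = E ∧ Divisor.degree E = 0 ∧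
        (∑ i ∈ Finset.range m, (g ^ (n * i)) • E) - D ∈ Divisor.principal (K := k) (F := Ft))
    (hH90 : ∀ n : ℕ, 0 < n → ∀ x : Pic0 k Ft, (g ^ n) • x = x →
      ∃ D : Divisor.degZero (K := k) (F := Ft), (g ^ n) • (D : Divisor k Ft) = D ∧ Pic0.mk D = x) :
    ∀ n m : ℕ, 0 < n → 0 < m → ∀ x : Pic0 k Ft, (g ^ n) • x = x →
      ∃ y : Pic0 k Ft, (g ^ (n * m)) • y = y ∧ ∑ i ∈ Finset.range m, (g ^ (n * i)) • y = x := by
  intro n m hn hm x hx
  have h := norm_surj_of_divisor_form (g ^ n) m ?_ (hH90 n hn) x hx
  · obtain ⟨y, hy1, hy2⟩ := h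
    refine ⟨y, ?_, ?_⟩
    · rw [pow_mul]
      exact hy1
    · rw [← hy2]
      exact Finset.sum_congr rfl fun i _ => by rw [pow_mul]
  · intro D hD hD0
    obtain ⟨E, hE1, hE0, hE2⟩ := hcore n m hn hm D hD hD0
    refine ⟨E, ?_, hE0, ?_⟩
    · rw [← pow_mul]
      exact hE1
    · have : ∑ i ∈ Finset.range m, ((g ^ n) ^ i) • E = ∑ i ∈ Finset.range m, (g ^ (n * i)) • E :=
        Finset.sum_congr rfl fun i _ => by rw [pow_mul]
      rw [this]
      exact hE2

end Plug

end Fermat.Agent.GJ27.Norm.Frame
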