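/-
GATE-J27 (S27) / node A6 = GJ27-NORM, BINDER-FREE form (helper68): helper63's `Norm.norm_surjective`
(`GJ27/Norm/Plug.lean`) with its only binder (A1-H90) discharged by helper56's
`Desc.exists_invariant_rep_pow` (`GJ27/Desc/Cl0.lean`).

**Lang's theorem for `Pic⁰`** on the `FrobData` frame, in the `(n, m)` shape of board 5534 §4: for
`0 < n`, `0 < m` the norm `∑_{i<m} g^{n i} : Pic⁰^{g^{n m}} → Pic⁰^{g^n}` is surjective.
-/
import Mathlib
import Fermat.Agent.GJ27.Norm.Plug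
import Fermat.Agent.GJ27.Desc.Cl0
import Fermat.Agent.GJ27.Frob.OfFrobStr

set_option autoImplicit false

noncomputable section

open AlgebraicCurve

namespace Fermat.Agent.GJ27.Norm.Final

open Fermat.Agent.RRh45 Fermat.Agent.S24 Fermat.Agent.GJ27.Frob

variable {p : ℕ} {k Ft : Type*} [Field k] [Field Ft] [Algebra k Ft]
variable [HasPrincipalDivisors k Ft] [Fact p.Prime] [CharP k p] [IsAlgClosed k]
  [FiniteResidues k Ft] [Nonempty (Place k Ft)]

/-- **Lang's theorem for `Pic⁰`, binder-free**: the norm `Pic⁰^{g^{nm}} → Pic⁰^{g^n}` is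
surjective. -/
theorem norm_surjective (Φ : FrobData p k Ft) (gen : ℕ) (c : ℤ)
    (hRiem : ∀ E : Divisor k Ft, c ≤ Divisor.degree E →
      (Module.finrank k (riemannRochSpace E) : ℤ) = Divisor.degree E + 1 - gen)
    (n m : ℕ) (hn : 0 < n) (hm : 0 < m) (x : Pic0 k Ft) (hx : (Φ.g ^ n) • x = x) :
    ∃ y : Pic0 k Ft, (Φ.g ^ (n * m)) • y = y ∧
      ∑ i ∈ Finset.range m, (Φ.g ^ (n * i)) • y = x :=
  Fermat.Agent.GJ27.Norm.norm_surjective Φ gen c hRiem
    (fun n hn x hx => Fermat.Agent.GJ27.Desc.exists_invariant_rep_pow Φ n hn x hx) n m hn hm x hx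

/-- the same for a `FrobStr` (vocabulary of `GJ27/Vocab.lean`), `g := Φ.semiAut`. -/
theorem norm_surjective_frobStr [ExpChar k p] [PerfectRing k p]
    (Φ : Fermat.Agent.GJ27.FrobStr p k Ft) (gen : ℕ) (c : ℤ)
    (hRiem : ∀ E : Divisor k Ft, c ≤ Divisor.degree E →
      (Module.finrank k (riemannRochSpace E) : ℤ) = Divisor.degree E + 1 - gen)
    (n m : ℕ) (hn : 0 < n) (hm : 0 < m) (x : Pic0 k Ft) (hx : (Φ.semiAut ^ n) • x = x) :
    ∃ y : Pic0 k Ft, (Φ.semiAut ^ (n * m)) • y = y ∧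
      ∑ i ∈ Finset.range m, (Φ.semiAut ^ (n * i)) • y = x :=
  norm_surjective Φ.frobData gen c hRiem n m hn hm x hx

end Fermat.Agent.GJ27.Norm.Final
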