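/-
GATE-J27 (S27) / node A6 `GJ27-NORM` (helper63) — file 2: invariant divisors and the norm.

`X` a set with a permutation `σ`; divisors are finitely supported functions `X →₀ M`
(`M = ℕ` effective divisors, `M = ℤ` divisors).  `σ` acts by `Finsupp.mapDomain σ`.

* `IsInv σ D`      : `D (σ x) = D x` for all `x`  (⟺ `mapDomain σ D = D`);
* `Nm σ m D`       : the norm `Σ_{i<m} mapDomain (σ^i) D`; it is `σ`-invariant if `D` is
                     `σ^m`-invariant;
* `natToInt`       : effective divisors ↪ divisors;  `posPart` : the positive part.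

Mathlib only.
-/
import Mathlib

set_option autoImplicit false

noncomputable section

namespace Fermat.Agent.GJ27.Norm

open Finset

variable {X : Type*} {M : Type*}

section Monoid

variable [AddCommMonoid M]

/-- `D` is invariant under the permutation `σ`. -/
def IsInv (σ : Equiv.Perm X) (D : X →₀ M) : Prop := ∀ x, D (σ x) = D x

theorem mapDomain_perm_apply (σ : Equiv.Perm X) (D : X →₀ M) (x : X) :
    Finsupp.mapDomain σ D x = D (σ.symm x) := by
  have h := Finsupp.mapDomain_apply σ.injective D (σ.symm x)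
  rwa [Equiv.apply_symm_apply] at h

theorem isInv_iff_mapDomain (σ : Equiv.Perm X) (D : X →₀ M) :
    IsInv σ D ↔ Finsupp.mapDomain σ D = D := by
  constructor
  · intro h
    ext x
    rw [mapDomain_perm_apply]
    have := h (σ.symm x)
    rw [Equiv.apply_symm_apply] at this
    exact this.symm
  · intro h x
    have := DFunLike.congr_fun h (σ x)
    rw [mapDomain_perm_apply, Equiv.symm_apply_apply] at this
    exact this.symm

theorem IsInv.mapDomain_eq {σ : Equiv.Perm X} {D : X →₀ M} (h : IsInv σ D) :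
    Finsupp.mapDomain σ D = D := (isInv_iff_mapDomain σ D).mp h

theorem isInv_zero (σ : Equiv.Perm X) : IsInv σ (0 : X →₀ M) := fun _ => rfl

theorem IsInv.add {σ : Equiv.Perm X} {D E : X →₀ M} (hD : IsInv σ D) (hE : IsInv σ E) :
    IsInv σ (D + E) := fun x => by
  rw [Finsupp.add_apply, Finsupp.add_apply, hD x, hE x]

theorem IsInv.nsmul {σ : Equiv.Perm X} {D : X →₀ M} (hD : IsInv σ D) (n : ℕ) :
    IsInv σ (n • D) := fun x => by
  rw [Finsupp.smul_apply, Finsupp.smul_apply, hD x]

theorem IsInv.pow {σ : Equiv.Perm X} {D : X →₀ M} (hD : IsInv σ D) (n : ℕ) :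
    IsInv (σ ^ n) D := by
  induction n with
  | zero => intro x; simp
  | succ n ih =>
    intro x
    rw [pow_succ, Equiv.Perm.mul_apply, ih (σ x), hD x]

theorem IsInv.symm {σ : Equiv.Perm X} {D : X →₀ M} (hD : IsInv σ D) (x : X) :
    D (σ.symm x) = D x := by
  have := hD (σ.symm x)
  rw [Equiv.apply_symm_apply] at this
  exact this.symm

theorem IsInv.sum {ι : Type*} {σ : Equiv.Perm X} (s : Finset ι) (f : ι → X →₀ M)
    (h : ∀ i ∈ s, IsInv σ (f i)) : IsInv σ (∑ i ∈ s, f i) := by
  classical
  induction s using Finset.induction_on with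
  | empty => simpa using isInv_zero σ
  | insert a s ha ih =>
    rw [Finset.sum_insert ha]
    exact (h a (Finset.mem_insert_self a s)).add
      (ih fun i hi => h i (Finset.mem_insert_of_mem hi))

/-- invariance is preserved by the action of a commuting permutation. -/
theorem IsInv.mapDomain {σ ρ : Equiv.Perm X} (hc : Commute ρ σ) {D : X →₀ M} (hD : IsInv σ D) :
    IsInv σ (Finsupp.mapDomain ρ D) := by
  intro x
  rw [mapDomain_perm_apply, mapDomain_perm_apply]
  have h1 : ρ.symm (σ x) = σ (ρ.symm x) := by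
    have := congrArg (fun e : Equiv.Perm X => e (ρ.symm x)) hc.eq
    simp only [Equiv.Perm.mul_apply, Equiv.apply_symm_apply] at this
    rw [← this, Equiv.symm_apply_apply]
  rw [h1, hD]

/-- The norm `Σ_{i<m} σ^i D`. -/
def Nm (σ : Equiv.Perm X) (m : ℕ) (D : X →₀ M) : X →₀ M :=
  ∑ i ∈ range m, Finsupp.mapDomain (σ ^ i) D

@[simp] theorem Nm_zero (σ : Equiv.Perm X) (m : ℕ) : Nm σ m (0 : X →₀ M) = 0 := by
  simp [Nm]

theorem Nm_add (σ : Equiv.Perm X) (m : ℕ) (D E : X →₀ M) :
    Nm σ m (D + E) = Nm σ m D + Nm σ m E := by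
  simp [Nm, Finsupp.mapDomain_add, Finset.sum_add_distrib]

theorem Nm_nsmul (σ : Equiv.Perm X) (m : ℕ) (n : ℕ) (D : X →₀ M) :
    Nm σ m (n • D) = n • Nm σ m D := by
  induction n with
  | zero => simp
  | succ n ih => rw [succ_nsmul, succ_nsmul, Nm_add, ih]

theorem degree_Nm (σ : Equiv.Perm X) (m : ℕ) (D : X →₀ M) :
    (Nm σ m D).degree = m • D.degree := by
  rw [Nm, map_sum]
  simp [Finsupp.degree_mapDomain]

/-- the norm of an invariant divisor is `m` times the divisor. -/
theorem Nm_of_isInv {σ : Equiv.Perm X} {D : X →₀ M} (hD : IsInv σ D) (m : ℕ) :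
    Nm σ m D = m • D := by
  rw [Nm]
  have : ∀ i ∈ range m, Finsupp.mapDomain (σ ^ i) D = D :=
    fun i _ => (hD.pow i).mapDomain_eq
  rw [Finset.sum_congr rfl this]
  simp

end Monoid

section Cancel

variable [AddCancelCommMonoid M]

/-- the norm of a `σ^m`-invariant divisor is `σ`-invariant. -/
theorem isInv_Nm {σ : Equiv.Perm X} {m : ℕ} {D : X →₀ M} (hD : IsInv (σ ^ m) D) :
    IsInv σ (Nm σ m D) := by
  rw [isInv_iff_mapDomain, Nm, Finsupp.mapDomain_finsetSum]
  have h1 : ∀ i ∈ range m, Finsupp.mapDomain σ (Finsupp.mapDomain (σ ^ i) D)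
      = Finsupp.mapDomain (σ ^ (i + 1)) D := by
    intro i _
    rw [← Finsupp.mapDomain_comp]
    congr 1
    rw [pow_succ']
    rfl
  rw [Finset.sum_congr rfl h1]
  have h2 := Finset.sum_range_succ' (fun i => Finsupp.mapDomain (σ ^ i) D) m
  have h3 := Finset.sum_range_succ (fun i => Finsupp.mapDomain (σ ^ i) D) m
  rw [h3] at h2
  have h4 : Finsupp.mapDomain (⇑(σ ^ m)) D = Finsupp.mapDomain (⇑(σ ^ 0)) D := by
    rw [hD.mapDomain_eq, pow_zero]
    exact (Finsupp.mapDomain_id).symm
  rw [h4] at h2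
  exact (add_right_cancel h2).symm

end Cancel

section Group

variable [AddCommGroup M]

theorem IsInv.neg {σ : Equiv.Perm X} {D : X →₀ M} (hD : IsInv σ D) : IsInv σ (-D) := fun x => by
  rw [Finsupp.neg_apply, Finsupp.neg_apply, hD x]

theorem IsInv.sub {σ : Equiv.Perm X} {D E : X →₀ M} (hD : IsInv σ D) (hE : IsInv σ E) :
    IsInv σ (D - E) := fun x => by
  rw [Finsupp.sub_apply, Finsupp.sub_apply, hD x, hE x]

theorem IsInv.zsmul {σ : Equiv.Perm X} {D : X →₀ M} (hD : IsInv σ D) (n : ℤ) :
    IsInv σ (n • D) := fun x => by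
  rw [Finsupp.smul_apply, Finsupp.smul_apply, hD x]

theorem Nm_neg (σ : Equiv.Perm X) (m : ℕ) (D : X →₀ M) : Nm σ m (-D) = -Nm σ m D := by
  have h := Nm_add σ m D (-D)
  rw [add_neg_cancel, Nm_zero] at h
  exact (neg_eq_of_add_eq_zero_right h.symm).symm

theorem Nm_sub (σ : Equiv.Perm X) (m : ℕ) (D E : X →₀ M) :
    Nm σ m (D - E) = Nm σ m D - Nm σ m E := by
  rw [sub_eq_add_neg, Nm_add, Nm_neg, ← sub_eq_add_neg]

end Group

/-! ### effective divisors inside divisors -/

/-- effective divisors as divisors. -/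
def natToInt : (X →₀ ℕ) →+ (X →₀ ℤ) :=
  Finsupp.mapRange.addMonoidHom (Nat.castAddMonoidHom ℤ)

@[simp] theorem natToInt_apply (E : X →₀ ℕ) (x : X) : natToInt E x = (E x : ℤ) := by
  simp [natToInt]

theorem natToInt_injective : Function.Injective (natToInt : (X →₀ ℕ) → (X →₀ ℤ)) := by
  intro E E' h
  ext x
  have := DFunLike.congr_fun h x
  simpa using this

theorem isInv_natToInt (σ : Equiv.Perm X) (E : X →₀ ℕ) : IsInv σ (natToInt E) ↔ IsInv σ E := by
  constructor
  · intro h x
    have := h x
    simpa using this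
  · intro h x
    simp [h x]

theorem natToInt_mapDomain (σ : Equiv.Perm X) (E : X →₀ ℕ) :
    natToInt (Finsupp.mapDomain σ E) = Finsupp.mapDomain σ (natToInt E) := by
  ext x
  rw [natToInt_apply, mapDomain_perm_apply, mapDomain_perm_apply, natToInt_apply]

theorem natToInt_Nm (σ : Equiv.Perm X) (m : ℕ) (E : X →₀ ℕ) :
    natToInt (Nm σ m E) = Nm σ m (natToInt E) := by
  simp only [Nm, map_sum, natToInt_mapDomain]

theorem degree_natToInt (E : X →₀ ℕ) : (natToInt E).degree = (E.degree : ℤ) := by
  induction E using Finsupp.induction with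
  | zero => simp
  | single_add a n E _ _ ih =>
    have : natToInt (Finsupp.single a n) = Finsupp.single a (n : ℤ) := by
      classical
      ext x
      rw [natToInt_apply]
      by_cases hx : a = x
      · subst hx; simp
      · rw [Finsupp.single_apply, Finsupp.single_apply, if_neg hx, if_neg hx]; rfl
    rw [map_add, map_add, map_add, ih, this, Finsupp.degree_single, Finsupp.degree_single]
    push_cast
    rfl

/-- the positive part of a divisor. -/
def posPart (D : X →₀ ℤ) : X →₀ ℕ := D.mapRange Int.toNat rfl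

@[simp] theorem posPart_apply (D : X →₀ ℤ) (x : X) : posPart D x = (D x).toNat := by
  simp [posPart]

theorem IsInv.posPart {σ : Equiv.Perm X} {D : X →₀ ℤ} (hD : IsInv σ D) : IsInv σ (posPart D) :=
  fun x => by rw [posPart_apply, posPart_apply, hD x]

theorem natToInt_posPart_sub (D : X →₀ ℤ) :
    natToInt (posPart D) - natToInt (posPart (-D)) = D := by
  ext x
  simp only [Finsupp.sub_apply, natToInt_apply, posPart_apply, Finsupp.neg_apply]
  omega

/-- a nonzero divisor of degree `0` has nonzero positive part. -/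
theorem posPart_ne_zero {D : X →₀ ℤ} (hD : D ≠ 0) (hdeg : D.degree = 0) : posPart D ≠ 0 := by
  intro h0
  have h1 := natToInt_posPart_sub D
  rw [h0, map_zero, zero_sub] at h1
  have h2 : ((posPart (-D)).degree : ℤ) = 0 := by
    rw [← degree_natToInt]
    have : natToInt (posPart (-D)) = -D := by
      conv_rhs => rw [← h1]
      simp
    rw [this, map_neg, hdeg, neg_zero]
  have h3 : posPart (-D) = 0 := by
    have : (posPart (-D)).degree = 0 := by exact_mod_cast h2
    exact (Finsupp.degree_eq_zero_iff _).mp this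
  rw [h3, map_zero, neg_zero] at h1
  exact hD h1.symm

end Fermat.Agent.GJ27.Norm
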