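/-
GATE-J27 (S27) / node A6 `GJ27-NORM` (helper63) — file 1: the power-series lemma.

Over an algebraically closed field `R` of characteristic zero:

* `eq_of_logDer` : two power series with constant coefficient `1` and the same logarithmic
  derivative (`X * F' = F * C`) are equal;
* `logDer_multiset_prod` : `X * F' = F * Σ_a geomC a` for `F = ∏_a (1 - a X)`;
* `exists_multiset_eq_prod` : a polynomial with constant coefficient `1` is `∏_a (1 - a X)`;
* `exists_polynomial_of_logDer_subseq` : **base change**.  If the polynomial `p` (`p(0) = 1`) has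
  logarithmic derivative `Σ_j cs j X^j` and the power series `B` (`B(0) = 1`) has logarithmic
  derivative `Σ_i cs (m i) X^i` (`m > 0`), then `B` is a polynomial
  (namely `∏ (1 - a^m X)` if `p = ∏ (1 - a X)`).

Mathlib only.
-/
import Mathlib

set_option autoImplicit false

noncomputable section

namespace Fermat.Agent.GJ27.Norm

open PowerSeries

variable {R : Type*} [Field R]

/-- Two power series with constant coefficient `1` and the same logarithmic derivative agree. -/
theorem eq_of_logDer [CharZero R] {F G C : R⟦X⟧} (hF0 : constantCoeff F = 1)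
    (hG0 : constantCoeff G = 1)
    (hF : (X : R⟦X⟧) * d⁄dX R F = F * C) (hG : (X : R⟦X⟧) * d⁄dX R G = G * C) : F = G := by
  have hGne : constantCoeff G ≠ 0 := by rw [hG0]; exact one_ne_zero
  have hGinv : G * G⁻¹ = 1 := PowerSeries.mul_inv_cancel G hGne
  have hH : (X : R⟦X⟧) * d⁄dX R (F * G⁻¹) = 0 := by
    rw [Derivation.leibniz, derivative_inv']
    simp only [smul_eq_mul]
    have h1 : (X : R⟦X⟧) * (F * (-G⁻¹ ^ 2 * d⁄dX R G) + G⁻¹ * d⁄dX R F)
        = -(F * G⁻¹ ^ 2) * (X * d⁄dX R G) + G⁻¹ * (X * d⁄dX R F) := by ring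
    rw [h1, hF, hG]
    have h2 : -(F * G⁻¹ ^ 2) * (G * C) + G⁻¹ * (F * C) = F * C * G⁻¹ * (1 - G * G⁻¹) := by ring
    rw [h2, hGinv]; ring
  have hH' : d⁄dX R (F * G⁻¹) = 0 := (mul_eq_zero.mp hH).resolve_left X_ne_zero
  have h1 : F * G⁻¹ = 1 := by
    apply derivative.ext
    · rw [hH', derivative_one]
    · rw [map_mul, hF0, PowerSeries.constantCoeff_inv, hG0]; simp
  calc F = F * (G * G⁻¹) := by rw [hGinv, mul_one]
    _ = (F * G⁻¹) * G := by ring
    _ = G := by rw [h1, one_mul]

/-- The logarithmic derivative series of `1 - a X`, i.e. `- Σ_{j ≥ 1} a^j X^j`. -/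
def geomC (a : R) : R⟦X⟧ := PowerSeries.mk fun j => if j = 0 then 0 else -a ^ j

@[simp] theorem coeff_geomC (a : R) (j : ℕ) :
    coeff j (geomC a) = if j = 0 then 0 else -a ^ j := by
  simp [geomC]

theorem logDer_linear (a : R) :
    (X : R⟦X⟧) * d⁄dX R (1 - C a * X) = (1 - C a * X) * geomC a := by
  have hd : d⁄dX R (1 - C a * X : R⟦X⟧) = -C a := by
    rw [map_sub, derivative_one, Derivation.leibniz, derivative_X, derivative_C]
    simp
  rw [hd]
  ext n
  rcases n with _ | n
  · have h0 : constantCoeff (geomC a) = 0 := by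
      rw [← coeff_zero_eq_constantCoeff_apply, coeff_geomC]; simp
    simp [h0]
  · rw [coeff_succ_X_mul, sub_mul, one_mul, map_sub, mul_assoc, coeff_C_mul, coeff_succ_X_mul,
      coeff_geomC, coeff_geomC, map_neg, coeff_C]
    rcases n with _ | n
    · simp
    · simp [pow_succ]; ring

theorem logDer_multiset_prod (s : Multiset R) :
    (X : R⟦X⟧) * d⁄dX R ((s.map fun a => (1 - C a * X : R⟦X⟧)).prod)
      = (s.map fun a => (1 - C a * X : R⟦X⟧)).prod * (s.map geomC).sum := by
  induction s using Multiset.induction_on with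
  | empty => simp
  | cons a s ih =>
    rw [Multiset.map_cons, Multiset.prod_cons, Multiset.map_cons, Multiset.sum_cons,
      Derivation.leibniz]
    simp only [smul_eq_mul]
    have h1 : (X : R⟦X⟧) * ((1 - C a * X) * d⁄dX R (s.map fun a => (1 - C a * X : R⟦X⟧)).prod
        + (s.map fun a => (1 - C a * X : R⟦X⟧)).prod * d⁄dX R (1 - C a * X))
        = (1 - C a * X) * (X * d⁄dX R (s.map fun a => (1 - C a * X : R⟦X⟧)).prod)
          + (s.map fun a => (1 - C a * X : R⟦X⟧)).prod * (X * d⁄dX R (1 - C a * X)) := by ring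
    rw [h1, ih, logDer_linear]
    ring

theorem constantCoeff_multiset_prod (s : Multiset R) :
    constantCoeff ((s.map fun a => (1 - C a * X : R⟦X⟧)).prod) = 1 := by
  rw [map_multiset_prod, Multiset.map_map]
  have : (s.map ((constantCoeff : R⟦X⟧ →+* R) ∘ fun a => (1 - C a * X : R⟦X⟧)))
      = s.map fun _ => (1 : R) := by
    apply Multiset.map_congr rfl
    intro a _
    simp
  rw [this]
  simp

/-- a polynomial with constant coefficient `1` over an algebraically closed field is a product of
factors `1 - a X`. -/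
theorem exists_multiset_eq_prod [IsAlgClosed R] (p : Polynomial R) (hp0 : p.coeff 0 = 1) :
    ∃ s : Multiset R,
      p = (s.map fun a => (1 - Polynomial.C a * Polynomial.X : Polynomial R)).prod := by
  classical
  have hsp := IsAlgClosed.splits p
  have hpe := hsp.eq_prod_roots
  have hroot : ∀ b ∈ p.roots, b ≠ 0 := by
    intro b hb h0
    have hb' := (Polynomial.mem_roots'.mp hb).2
    rw [h0, Polynomial.IsRoot.def, ← Polynomial.coeff_zero_eq_eval_zero, hp0] at hb'
    exact one_ne_zero hb'
  refine ⟨p.roots.map fun b => b⁻¹, ?_⟩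
  have hfac : (p.roots.map fun b => (Polynomial.X - Polynomial.C b : Polynomial R))
      = p.roots.map fun b => Polynomial.C (-b) * (1 - Polynomial.C b⁻¹ * Polynomial.X) := by
    apply Multiset.map_congr rfl
    intro b hb
    have hb0 := hroot b hb
    have : Polynomial.C (-b) * (Polynomial.C b⁻¹ * Polynomial.X)
        = -(Polynomial.X : Polynomial R) := by
      rw [← mul_assoc, ← Polynomial.C_mul, neg_mul, mul_inv_cancel₀ hb0]
      simp
    rw [mul_sub, mul_one, this, Polynomial.C_neg]
    ring
  rw [hfac, Multiset.prod_map_mul] at hpe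
  -- evaluate at `0`
  have hconst : p.leadingCoeff * (p.roots.map fun b => (-b)).prod = 1 := by
    have h0 := congrArg (Polynomial.eval 0) hpe
    rw [← Polynomial.coeff_zero_eq_eval_zero, hp0] at h0
    rw [Polynomial.eval_mul, Polynomial.eval_mul, Polynomial.eval_C,
      Polynomial.eval_multiset_prod, Polynomial.eval_multiset_prod, Multiset.map_map,
      Multiset.map_map] at h0
    have e1 : (p.roots.map (Polynomial.eval 0 ∘ fun b => Polynomial.C (-b)))
        = p.roots.map fun b => (-b) := by
      apply Multiset.map_congr rfl; intro b _; simp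
    have e2 : (p.roots.map (Polynomial.eval 0 ∘
        fun b => (1 - Polynomial.C b⁻¹ * Polynomial.X : Polynomial R)))
        = p.roots.map fun _ => (1 : R) := by
      apply Multiset.map_congr rfl; intro b _; simp
    rw [e1, e2] at h0
    simp only [Multiset.map_const', Multiset.prod_replicate, one_pow, mul_one] at h0
    exact h0.symm
  have hC : (p.roots.map fun b => (Polynomial.C (-b) : Polynomial R)).prod
      = Polynomial.C (p.roots.map fun b => (-b)).prod := by
    rw [map_multiset_prod, Multiset.map_map]; rfl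
  rw [hC, ← mul_assoc, ← Polynomial.C_mul, hconst, Polynomial.C_1, one_mul] at hpe
  rw [Multiset.map_map]
  exact hpe

/-- coercion of the product `∏ (1 - a X)` from polynomials to power series. -/
theorem coe_multiset_prod (s : Multiset R) :
    (((s.map fun a => (1 - Polynomial.C a * Polynomial.X : Polynomial R)).prod : Polynomial R)
      : R⟦X⟧) = (s.map fun a => (1 - C a * X : R⟦X⟧)).prod := by
  have h := map_multiset_prod (Polynomial.coeToPowerSeries.ringHom (R := R))
    (s.map fun a => (1 - Polynomial.C a * Polynomial.X : Polynomial R))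
  rw [Polynomial.coeToPowerSeries.ringHom_apply] at h
  rw [h, Multiset.map_map]
  apply congrArg
  apply Multiset.map_congr rfl
  intro a _
  simp [Polynomial.coeToPowerSeries.ringHom_apply]

/-- **Base change of a polynomial `L`-function.** -/
theorem exists_polynomial_of_logDer_subseq [IsAlgClosed R] [CharZero R]
    (p : Polynomial R) (hp0 : p.coeff 0 = 1) (cs : ℕ → R)
    (hA : (X : R⟦X⟧) * d⁄dX R (p : R⟦X⟧) = (p : R⟦X⟧) * PowerSeries.mk cs)
    (m : ℕ) (hm : 0 < m) (B : R⟦X⟧) (hB0 : constantCoeff B = 1)
    (hB : (X : R⟦X⟧) * d⁄dX R B = B * PowerSeries.mk (fun i => cs (m * i))) :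
    ∃ r : Polynomial R, B = (r : R⟦X⟧) := by
  obtain ⟨s, hs⟩ := exists_multiset_eq_prod p hp0
  have hps : (p : R⟦X⟧) = (s.map fun a => (1 - C a * X : R⟦X⟧)).prod := by
    rw [hs, coe_multiset_prod]
  -- the coefficients `cs` are minus the power sums
  have hcs : PowerSeries.mk cs = (s.map geomC).sum := by
    have h1 := logDer_multiset_prod s
    rw [← hps, hA] at h1
    have hpne : (p : R⟦X⟧) ≠ 0 := by
      intro h0
      have := congrArg (coeff 0) h0
      rw [Polynomial.coeff_coe, hp0] at this
      simp at this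
    exact mul_left_cancel₀ hpne h1
  have hcsj : ∀ j, cs j = (s.map fun a => if j = 0 then 0 else -a ^ j).sum := by
    intro j
    have := congrArg (coeff j) hcs
    rw [coeff_mk, map_multiset_sum, Multiset.map_map] at this
    rw [this]
    apply congrArg
    apply Multiset.map_congr rfl
    intro a _
    simp
  refine ⟨((s.map fun a => a ^ m).map
    fun a => (1 - Polynomial.C a * Polynomial.X : Polynomial R)).prod, ?_⟩
  rw [coe_multiset_prod]
  apply eq_of_logDer hB0 (constantCoeff_multiset_prod _) hB
  rw [logDer_multiset_prod]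
  congr 1
  ext i
  rw [coeff_mk, hcsj, map_multiset_sum, Multiset.map_map, Multiset.map_map]
  apply congrArg
  apply Multiset.map_congr rfl
  intro a _
  simp only [Function.comp_apply, coeff_geomC]
  rcases Nat.eq_zero_or_pos i with h0 | h0
  · simp [h0]
  · have hmi : m * i ≠ 0 := (Nat.mul_pos hm h0).ne'
    rw [if_neg h0.ne', if_neg hmi, pow_mul]

end Fermat.Agent.GJ27.Norm
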