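/-
GATE-J27 (S27) / node A6 `GJ27-NORM` (helper63) — file 3: the abstract core of Lang's theorem
(norm surjectivity) by `L`-functions.

`X` a set with a permutation `τ`, `P` a `τ`-stable subgroup of degree-zero divisors (the principal
divisors).  Hypotheses (`CoreHyp`):

* `hcount` : for `τ`-invariant `D` of degree `d ≥ c` the number of `τ`-invariant effective divisors
  `E` with `E - D ∈ P` only depends on `d`;
* `hLD`    : the logarithmic-derivative identities of the weighted zeta series of `τ` and `τ ^ m`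
  (node A2 + orbit splitting, file `Bridge.lean`).

Conclusion (`exists_norm_preimage`): every `τ`-invariant divisor `D` of degree `0` is, modulo `P`,
the norm `Σ_{i<m} τ^i E` of a `τ^m`-invariant divisor `E` of degree `0`.

Mathlib only.
-/
import Mathlib
import Fermat.Agent.GJ27.Norm.PS
import Fermat.Agent.GJ27.Norm.Basic

set_option autoImplicit false

noncomputable section

namespace Fermat.Agent.GJ27.Norm

open Finset PowerSeries

variable {X : Type*}

/-- the hypotheses of the abstract core. -/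
structure CoreHyp (τ : Equiv.Perm X) (P : AddSubgroup (X →₀ ℤ)) (m : ℕ) where
  /-- principal divisors have degree `0` -/
  hPdeg : ∀ D ∈ P, D.degree = 0
  /-- principal divisors are `τ`-stable -/
  hPτ : ∀ D ∈ P, Finsupp.mapDomain τ D ∈ P
  /-- `τ`-invariant effective divisors of degree `d` -/
  EE : ℕ → Finset (X →₀ ℕ)
  /-- `τ^m`-invariant effective divisors of degree `d` -/
  EE' : ℕ → Finset (X →₀ ℕ)
  mem_EE : ∀ d E, E ∈ EE d ↔ IsInv τ E ∧ E.degree = d
  mem_EE' : ∀ d E, E ∈ EE' d ↔ IsInv (τ ^ m) E ∧ E.degree = d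
  /-- the Riemann threshold -/
  c : ℕ
  /-- the number of invariant effective divisors in an invariant class of degree `d ≥ c` -/
  κ : ℕ → ℕ
  hcount : ∀ d, c ≤ d → ∀ D : X →₀ ℤ, IsInv τ D → D.degree = (d : ℤ) →
    Nat.card {E : X →₀ ℕ // IsInv τ E ∧ natToInt E - D ∈ P} = κ d
  /-- the logarithmic derivatives of the weighted zeta series at level `1` and level `m` -/
  hLD : ∀ w : (X →₀ ℕ) → ℂ, w 0 = 1 →
    (∀ E E', IsInv τ E → IsInv τ E' → w (E + E') = w E * w E') →
    ∃ cs : ℕ → ℂ,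
      (PowerSeries.X : ℂ⟦X⟧) * d⁄dX ℂ (PowerSeries.mk fun d => ∑ E ∈ EE d, w E)
        = (PowerSeries.mk fun d => ∑ E ∈ EE d, w E) * PowerSeries.mk cs ∧
      (PowerSeries.X : ℂ⟦X⟧) * d⁄dX ℂ (PowerSeries.mk fun d => ∑ E ∈ EE' d, w (Nm τ m E))
        = (PowerSeries.mk fun d => ∑ E ∈ EE' d, w (Nm τ m E))
          * PowerSeries.mk fun i => cs (m * i)

section Subgroups

variable (τ : Equiv.Perm X) (P : AddSubgroup (X →₀ ℤ)) (m : ℕ)

/-- invariant divisors. -/
def invSub : AddSubgroup (X →₀ ℤ) where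
  carrier := {D | IsInv τ D}
  zero_mem' := isInv_zero τ
  add_mem' := fun hD hE => hD.add hE
  neg_mem' := fun hD => hD.neg

/-- invariant divisors of degree `0`. -/
def invSub0 : AddSubgroup (X →₀ ℤ) := invSub τ ⊓ (Finsupp.degree : (X →₀ ℤ) →+ ℤ).ker

variable {τ} in
theorem mem_invSub {D : X →₀ ℤ} : D ∈ invSub τ ↔ IsInv τ D := Iff.rfl

variable {τ} in
theorem mem_invSub0 {D : X →₀ ℤ} : D ∈ invSub0 τ ↔ IsInv τ D ∧ D.degree = 0 := by
  rw [invSub0, AddSubgroup.mem_inf, AddMonoidHom.mem_ker]; rfl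

/-- invariant divisors of degree `0` which are norms modulo `P`. -/
def normSub : AddSubgroup (X →₀ ℤ) where
  carrier := {D | D ∈ invSub0 τ ∧
    ∃ E : X →₀ ℤ, IsInv (τ ^ m) E ∧ E.degree = 0 ∧ Nm τ m E - D ∈ P}
  zero_mem' := ⟨zero_mem _, 0, isInv_zero _, map_zero _, by simp⟩
  add_mem' := by
    rintro D D' ⟨hD, E, hE, hE0, hEP⟩ ⟨hD', E', hE', hE0', hEP'⟩
    refine ⟨add_mem hD hD', E + E', hE.add hE', by rw [map_add, hE0, hE0', add_zero], ?_⟩
    have : Nm τ m (E + E') - (D + D') = (Nm τ m E - D) + (Nm τ m E' - D') := by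
      rw [Nm_add]; abel
    rw [this]
    exact add_mem hEP hEP'
  neg_mem' := by
    rintro D ⟨hD, E, hE, hE0, hEP⟩
    refine ⟨neg_mem hD, -E, hE.neg, by rw [map_neg, hE0, neg_zero], ?_⟩
    have : Nm τ m (-E) - -D = -(Nm τ m E - D) := by
      rw [Nm_neg]; abel
    rw [this]
    exact neg_mem hEP

variable {τ P m} in
theorem mem_normSub {D : X →₀ ℤ} : D ∈ normSub τ P m ↔ D ∈ invSub0 τ ∧
    ∃ E : X →₀ ℤ, IsInv (τ ^ m) E ∧ E.degree = 0 ∧ Nm τ m E - D ∈ P := Iff.rfl

theorem normSub_le : normSub τ P m ≤ invSub0 τ := fun _ h => h.1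

/-- principal invariant divisors are norms. -/
theorem mem_normSub_of_mem_P {D : X →₀ ℤ} (hD : D ∈ invSub0 τ) (hP : D ∈ P) :
    D ∈ normSub τ P m :=
  ⟨hD, 0, isInv_zero _, map_zero _, by rw [Nm_zero, zero_sub]; exact neg_mem hP⟩

/-- norms of `τ^m`-invariant divisors of degree `0` are norms. -/
theorem Nm_mem_normSub {E : X →₀ ℤ} (hE : IsInv (τ ^ m) E) (hE0 : E.degree = 0) :
    Nm τ m E ∈ normSub τ P m :=
  ⟨mem_invSub0.mpr ⟨isInv_Nm hE, by rw [degree_Nm, hE0, smul_zero]⟩, E, hE, hE0,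
    by rw [sub_self]; exact zero_mem _⟩

/-- the quotient `Cl⁰₁ / N(Cl⁰_m)`. -/
abbrev NormQuot : Type _ := ↥(invSub0 τ) ⧸ (normSub τ P m).addSubgroupOf (invSub0 τ)

end Subgroups

/-! ### a retraction of invariant divisors onto invariant divisors of degree zero -/

theorem exists_retraction (τ : Equiv.Perm X) :
    ∃ s : (X →₀ ℤ) → (X →₀ ℤ), (∀ D, IsInv τ D → IsInv τ (s D) ∧ (s D).degree = 0) ∧
      (∀ D D', IsInv τ D → IsInv τ D' → s (D + D') = s D + s D') ∧
      (∀ D, IsInv τ D → D.degree = 0 → s D = D) := by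
  classical
  by_cases hex : ∃ n : ℕ, 0 < n ∧ ∃ D : X →₀ ℤ, IsInv τ D ∧ D.degree = (n : ℤ)
  · -- an invariant divisor of minimal positive degree
    obtain ⟨hδpos, D1, hD1, hD1deg⟩ := Nat.find_spec hex
    have hmin : ∀ n : ℕ, 0 < n → (∃ D : X →₀ ℤ, IsInv τ D ∧ D.degree = (n : ℤ)) →
        Nat.find hex ≤ n := fun n hn hD => Nat.find_min' hex ⟨hn, hD⟩
    generalize Nat.find hex = δ at hδpos hD1deg hmin
    have hδ0 : (δ : ℤ) ≠ 0 := by exact_mod_cast hδpos.ne'
    have hdegsub : ∀ D : X →₀ ℤ, (D - (D.degree / (δ : ℤ)) • D1).degree = D.degree % (δ : ℤ) := by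
      intro D
      rw [map_sub, map_zsmul, hD1deg, smul_eq_mul, Int.emod_def]; ring
    have hdvd : ∀ D : X →₀ ℤ, IsInv τ D → (δ : ℤ) ∣ D.degree := by
      intro D hD
      have hr := Int.emod_nonneg D.degree hδ0
      have hr' := Int.emod_lt_of_pos D.degree (by exact_mod_cast hδpos : (0 : ℤ) < δ)
      by_contra hnd
      have hrpos : 0 < D.degree % (δ : ℤ) :=
        lt_of_le_of_ne hr (fun h0 => hnd (Int.dvd_of_emod_eq_zero h0.symm))
      have h1 := hmin (D.degree % (δ : ℤ)).toNat (by omega)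
        ⟨D - (D.degree / (δ : ℤ)) • D1, hD.sub (hD1.zsmul _), by rw [hdegsub]; omega⟩
      omega
    refine ⟨fun D => D - (D.degree / (δ : ℤ)) • D1, ?_, ?_, ?_⟩
    · intro D hD
      refine ⟨hD.sub (hD1.zsmul _), ?_⟩
      rw [hdegsub]
      exact Int.emod_eq_zero_of_dvd (hdvd D hD)
    · intro D D' hD _
      have : (D + D').degree / (δ : ℤ) = D.degree / (δ : ℤ) + D'.degree / (δ : ℤ) := by
        rw [map_add]
        exact Int.add_ediv_of_dvd_left (hdvd D hD)
      simp only [this, add_smul]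
      abel
    · intro D _ hdeg
      simp [hdeg]
  · have h0 : ∀ D : X →₀ ℤ, IsInv τ D → D.degree = 0 := by
      intro D hD
      by_contra hne
      rcases lt_or_gt_of_ne hne with hlt | hgt
      · exact hex ⟨(-D.degree).toNat, by omega, -D, hD.neg, by rw [map_neg]; omega⟩
      · exact hex ⟨D.degree.toNat, by omega, D, hD, by omega⟩
    exact ⟨id, fun D hD => ⟨hD, h0 D hD⟩, fun _ _ _ _ => rfl, fun _ _ _ => rfl⟩

/-! ### consequences of the counting hypothesis -/

namespace CoreHyp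

variable {τ : Equiv.Perm X} {P : AddSubgroup (X →₀ ℤ)} {m : ℕ} (h : CoreHyp τ P m)

include h in
theorem EE_zero : h.EE 0 = {0} := by
  ext E
  rw [h.mem_EE, Finset.mem_singleton, Finsupp.degree_eq_zero_iff]
  exact ⟨fun hE => hE.2, fun hE => ⟨hE ▸ isInv_zero τ, hE⟩⟩

include h in
theorem EE'_zero : h.EE' 0 = {0} := by
  ext E
  rw [h.mem_EE', Finset.mem_singleton, Finsupp.degree_eq_zero_iff]
  exact ⟨fun hE => hE.2, fun hE => ⟨hE ▸ isInv_zero _, hE⟩⟩

include h in
/-- an effective divisor equivalent to `D` has the degree of `D`. -/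
theorem degree_eq_of_sub_mem {d : ℕ} {D : X →₀ ℤ} (hdeg : D.degree = (d : ℤ)) {E : X →₀ ℕ}
    (hE : natToInt E - D ∈ P) : E.degree = d := by
  have h0 := h.hPdeg _ hE
  rw [map_sub, degree_natToInt, hdeg, sub_eq_zero] at h0
  exact_mod_cast h0

/-- the counting hypothesis in `Finset.filter` form. -/
theorem card_filter {d : ℕ} (hd : h.c ≤ d) {D : X →₀ ℤ} (hD : IsInv τ D)
    (hdeg : D.degree = (d : ℤ)) [DecidablePred fun E : X →₀ ℕ => natToInt E - D ∈ P] :
    ((h.EE d).filter fun E => natToInt E - D ∈ P).card = h.κ d := by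
  rw [← h.hcount d hd D hD hdeg]
  have e : {E : X →₀ ℕ // IsInv τ E ∧ natToInt E - D ∈ P}
      ≃ {E : X →₀ ℕ // E ∈ (h.EE d).filter fun E => natToInt E - D ∈ P} :=
    Equiv.subtypeEquivRight fun E => by
      rw [Finset.mem_filter, h.mem_EE]
      exact ⟨fun hE => ⟨⟨hE.1, h.degree_eq_of_sub_mem hdeg hE.2⟩, hE.2⟩,
        fun hE => ⟨hE.1.1, hE.2⟩⟩
  rw [Nat.card_congr e, Nat.card_eq_fintype_card, Fintype.card_coe]

/-- above the threshold every nonempty degree has `κ d ≥ 1`, and then every invariant divisor of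
degree `d` is equivalent to an effective one. -/
theorem exists_effective {d : ℕ} (hd : h.c ≤ d) {E0 : X →₀ ℕ} (hE0 : E0 ∈ h.EE d)
    {D : X →₀ ℤ} (hD : IsInv τ D) (hdeg : D.degree = (d : ℤ)) :
    ∃ E ∈ h.EE d, natToInt E - D ∈ P := by
  classical
  have hE0' := (h.mem_EE d E0).mp hE0
  have h1 : 0 < h.κ d := by
    rw [← h.card_filter hd ((isInv_natToInt τ E0).mpr hE0'.1)
      (by rw [degree_natToInt, hE0'.2]), Finset.card_pos]
    exact ⟨E0, Finset.mem_filter.mpr ⟨hE0, by rw [sub_self]; exact zero_mem _⟩⟩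
  rw [← h.card_filter hd hD hdeg, Finset.card_pos] at h1
  obtain ⟨E, hE⟩ := h1
  exact ⟨E, (Finset.mem_filter.mp hE).1, (Finset.mem_filter.mp hE).2⟩

include h in
/-- the quotient `Cl⁰₁ / N(Cl⁰_m)` is finite. -/
theorem finite_normQuot {E1 : X →₀ ℕ} (hE1 : IsInv τ E1) (hd1 : 0 < E1.degree) :
    Finite (NormQuot τ P m) := by
  classical
  set d := h.c * E1.degree with hd
  have hcd : h.c ≤ d := Nat.le_mul_of_pos_right _ hd1
  have hE0 : h.c • E1 ∈ h.EE d := by
    rw [h.mem_EE]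
    exact ⟨hE1.nsmul _, by rw [map_nsmul, smul_eq_mul]⟩
  have hE0' := (h.mem_EE d _).mp hE0
  -- the map `E ↦ [E - E0]`
  have hmem : ∀ E : {E // E ∈ h.EE d}, natToInt E.1 - natToInt (h.c • E1) ∈ invSub0 τ := by
    intro E
    have hE := (h.mem_EE d E.1).mp E.2
    rw [mem_invSub0]
    refine ⟨((isInv_natToInt τ _).mpr hE.1).sub ((isInv_natToInt τ _).mpr hE0'.1), ?_⟩
    rw [map_sub, degree_natToInt, degree_natToInt, hE.2, hE0'.2, sub_self]
  let f : {E // E ∈ h.EE d} → NormQuot τ P m :=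
    fun E => QuotientAddGroup.mk ⟨natToInt E.1 - natToInt (h.c • E1), hmem E⟩
  apply Finite.of_surjective f
  intro x
  obtain ⟨⟨D, hD⟩, rfl⟩ := QuotientAddGroup.mk_surjective x
  have hD' := mem_invSub0.mp hD
  obtain ⟨E, hE, hEP⟩ := h.exists_effective hcd hE0
    (D := D + natToInt (h.c • E1)) (hD'.1.add ((isInv_natToInt τ _).mpr hE0'.1))
    (by rw [map_add, hD'.2, zero_add, degree_natToInt, hE0'.2])
  refine ⟨⟨E, hE⟩, ?_⟩
  rw [QuotientAddGroup.eq_iff_sub_mem, AddSubgroup.mem_addSubgroupOf]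
  apply mem_normSub_of_mem_P
  · exact sub_mem (hmem ⟨E, hE⟩) hD
  · have : ((⟨natToInt E - natToInt (h.c • E1), hmem ⟨E, hE⟩⟩ - ⟨D, hD⟩ : ↥(invSub0 τ))
        : X →₀ ℤ) = natToInt E - (D + natToInt (h.c • E1)) := by
      rw [AddSubgroup.coe_sub]
      show natToInt E - natToInt (h.c • E1) - D = natToInt E - (D + natToInt (h.c • E1))
      rw [sub_sub, add_comm]
    rw [this]
    exact hEP

/-- **Polynomiality.**  For a multiplicative function `χ` on invariant divisors which is trivial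
on `P` and nontrivial in degree `0`, the sum of `χ` over the invariant effective divisors of
degree `d ≥ c` vanishes. -/
theorem sum_eq_zero (χ : (X →₀ ℤ) → ℂ)
    (hmul : ∀ D D', IsInv τ D → IsInv τ D' → χ (D + D') = χ D * χ D')
    (hP : ∀ D, IsInv τ D → D ∈ P → χ D = 1)
    {Ds : X →₀ ℤ} (hDs : IsInv τ Ds) (hDs0 : Ds.degree = 0) (hχDs : χ Ds ≠ 1)
    {d : ℕ} (hd : h.c ≤ d) : ∑ E ∈ h.EE d, χ (natToInt E) = 0 := by
  classical
  rcases (h.EE d).eq_empty_or_nonempty with hemp | ⟨E0, hE0⟩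
  · rw [hemp, Finset.sum_empty]
  have hκ : (h.κ d : ℂ) ≠ 0 := by
    have hE0' := (h.mem_EE d E0).mp hE0
    have h1 : 0 < h.κ d := by
      rw [← h.card_filter hd ((isInv_natToInt τ E0).mpr hE0'.1)
        (by rw [degree_natToInt, hE0'.2]), Finset.card_pos]
      exact ⟨E0, Finset.mem_filter.mpr ⟨hE0, by rw [sub_self]; exact zero_mem _⟩⟩
    exact_mod_cast h1.ne'
  set S := ∑ E ∈ h.EE d, χ (natToInt E) with hS
  -- the double sum
  set T := ∑ E ∈ h.EE d, ∑ E' ∈ h.EE d,
    if natToInt E' - (natToInt E + Ds) ∈ P then χ (natToInt E') else 0 with hT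
  have hinvE : ∀ E ∈ h.EE d, IsInv τ (natToInt E) :=
    fun E hE => (isInv_natToInt τ E).mpr ((h.mem_EE d E).mp hE).1
  have hdegE : ∀ E ∈ h.EE d, (natToInt E).degree = (d : ℤ) :=
    fun E hE => by rw [degree_natToInt, ((h.mem_EE d E).mp hE).2]
  -- first evaluation
  have hT1 : T = χ Ds * ((h.κ d : ℂ) * S) := by
    have : ∀ E ∈ h.EE d, (∑ E' ∈ h.EE d,
        if natToInt E' - (natToInt E + Ds) ∈ P then χ (natToInt E') else 0)
        = (h.κ d : ℂ) * (χ (natToInt E) * χ Ds) := by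
      intro E hE
      have h1 : ∀ E' ∈ h.EE d,
          (if natToInt E' - (natToInt E + Ds) ∈ P then χ (natToInt E') else 0)
          = if natToInt E' - (natToInt E + Ds) ∈ P then χ (natToInt E) * χ Ds else 0 := by
        intro E' hE'
        split_ifs with hr
        · have hinv : IsInv τ (natToInt E' - (natToInt E + Ds)) :=
            (hinvE E' hE').sub ((hinvE E hE).add hDs)
          have : natToInt E' = (natToInt E + Ds) + (natToInt E' - (natToInt E + Ds)) := by abel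
          rw [this, hmul _ _ ((hinvE E hE).add hDs) hinv, hP _ hinv hr, mul_one,
            hmul _ _ (hinvE E hE) hDs]
        · rfl
      rw [Finset.sum_congr rfl h1, ← Finset.sum_filter, Finset.sum_const, nsmul_eq_mul,
        h.card_filter hd ((hinvE E hE).add hDs) (by rw [map_add, hdegE E hE, hDs0, add_zero])]
    rw [hT, Finset.sum_congr rfl this, ← Finset.mul_sum, ← Finset.sum_mul, ← hS]
    ring
  -- second evaluation
  have hT2 : T = (h.κ d : ℂ) * S := by
    rw [hT, Finset.sum_comm]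
    have : ∀ E' ∈ h.EE d, (∑ E ∈ h.EE d,
        if natToInt E' - (natToInt E + Ds) ∈ P then χ (natToInt E') else 0)
        = (h.κ d : ℂ) * χ (natToInt E') := by
      intro E' hE'
      have h1 : ∀ E ∈ h.EE d,
          (if natToInt E' - (natToInt E + Ds) ∈ P then χ (natToInt E') else 0)
          = if natToInt E - (natToInt E' - Ds) ∈ P then χ (natToInt E') else 0 := by
        intro E _
        have : natToInt E - (natToInt E' - Ds) = -(natToInt E' - (natToInt E + Ds)) := by abel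
        rw [this, neg_mem_iff]
      rw [Finset.sum_congr rfl h1, ← Finset.sum_filter, Finset.sum_const, nsmul_eq_mul,
        h.card_filter hd ((hinvE E' hE').sub hDs)
          (by rw [map_sub, hdegE E' hE', hDs0, sub_zero])]
    rw [Finset.sum_congr rfl this, ← Finset.mul_sum]
  have hfin : (χ Ds - 1) * ((h.κ d : ℂ) * S) = 0 := by
    rw [sub_mul, one_mul, ← hT1, hT2, sub_self]
  rcases mul_eq_zero.mp hfin with h1 | h1
  · exact absurd (sub_eq_zero.mp h1) hχDs
  · exact (mul_eq_zero.mp h1).resolve_left hκ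

end CoreHyp

/-! ### the main theorem -/

/-- **Norm surjectivity (Lang's theorem), abstract core.** -/
theorem exists_norm_preimage {τ : Equiv.Perm X} {P : AddSubgroup (X →₀ ℤ)} {m : ℕ}
    (h : CoreHyp τ P m) (hm : 0 < m) (D : X →₀ ℤ) (hD : IsInv τ D) (hdeg : D.degree = 0) :
    ∃ E : X →₀ ℤ, IsInv (τ ^ m) E ∧ E.degree = 0 ∧ Nm τ m E - D ∈ P := by
  classical
  by_contra hcon
  have hDI0 : D ∈ invSub0 τ := mem_invSub0.mpr ⟨hD, hdeg⟩
  have hDn : D ∉ normSub τ P m := fun hn => hcon hn.2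
  have hD0 : D ≠ 0 := by
    rintro rfl
    exact hDn (zero_mem _)
  -- an invariant effective divisor of positive degree
  have hE1 : IsInv τ (posPart D) := hD.posPart
  have hE1ne : posPart D ≠ 0 := posPart_ne_zero hD0 hdeg
  have hd1 : 0 < (posPart D).degree :=
    Nat.pos_of_ne_zero fun h0 => hE1ne ((Finsupp.degree_eq_zero_iff _).mp h0)
  -- the finite quotient and a character
  have : Finite (NormQuot τ P m) := h.finite_normQuot hE1 hd1
  have ha : Multiplicative.ofAdd (QuotientAddGroup.mk ⟨D, hDI0⟩ : NormQuot τ P m) ≠ 1 := by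
    intro h1
    have h2 : (QuotientAddGroup.mk ⟨D, hDI0⟩ : NormQuot τ P m) = 0 := h1
    rw [QuotientAddGroup.eq_zero_iff] at h2
    exact hDn (AddSubgroup.mem_addSubgroupOf.mp h2)
  have : NeZero ((Monoid.exponent (Multiplicative (NormQuot τ P m)) : ℕ) : ℂ) :=
    ⟨by exact_mod_cast Monoid.exponent_ne_zero_of_finite⟩
  obtain ⟨φ, hφ⟩ := CommGroup.exists_apply_ne_one_of_hasEnoughRootsOfUnity
    (Multiplicative (NormQuot τ P m)) ℂ ha
  -- the character on invariant divisors of degree `0`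
  let ψ : ↥(invSub0 τ) → ℂ :=
    fun x => ((φ (Multiplicative.ofAdd (QuotientAddGroup.mk x : NormQuot τ P m)) : ℂˣ) : ℂ)
  have hψadd : ∀ x y, ψ (x + y) = ψ x * ψ y := by
    intro x y
    show ((φ (Multiplicative.ofAdd (QuotientAddGroup.mk (x + y) : NormQuot τ P m)) : ℂˣ) : ℂ) = _
    rw [QuotientAddGroup.mk_add, ofAdd_add, map_mul, Units.val_mul]
  have hψnorm : ∀ x : ↥(invSub0 τ), (x : X →₀ ℤ) ∈ normSub τ P m → ψ x = 1 := by
    intro x hx
    have : (QuotientAddGroup.mk x : NormQuot τ P m) = 0 := by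
      rw [QuotientAddGroup.eq_zero_iff]
      exact AddSubgroup.mem_addSubgroupOf.mpr hx
    show ((φ (Multiplicative.ofAdd (QuotientAddGroup.mk x : NormQuot τ P m)) : ℂˣ) : ℂ) = 1
    rw [this, ofAdd_zero, map_one, Units.val_one]
  have hψne : ∀ x, ψ x ≠ 0 := fun x => Units.ne_zero _
  have hψD : ψ ⟨D, hDI0⟩ ≠ 1 := by
    intro h1
    apply hφ
    exact Units.ext h1
  -- extension to all invariant divisors
  obtain ⟨s, hs1, hs2, hs3⟩ := exists_retraction τ
  let χ : (X →₀ ℤ) → ℂ := fun D' =>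
    if hI : IsInv τ D' then ψ ⟨s D', mem_invSub0.mpr (hs1 D' hI)⟩ else 0
  have hχ : ∀ D' (hI : IsInv τ D'), χ D' = ψ ⟨s D', mem_invSub0.mpr (hs1 D' hI)⟩ :=
    fun D' hI => dif_pos hI
  have hχ0 : ∀ D' (hI : D' ∈ invSub0 τ), χ D' = ψ ⟨D', hI⟩ := by
    intro D' hI
    have hI' := mem_invSub0.mp hI
    rw [hχ D' hI'.1]
    congr 1
    exact Subtype.ext (hs3 D' hI'.1 hI'.2)
  have hχmul : ∀ D' D'', IsInv τ D' → IsInv τ D'' → χ (D' + D'') = χ D' * χ D'' := by
    intro D' D'' h' h''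
    rw [hχ _ (h'.add h''), hχ _ h', hχ _ h'', ← hψadd]
    congr 1
    exact Subtype.ext (hs2 D' D'' h' h'')
  have hχne : ∀ D', IsInv τ D' → χ D' ≠ 0 := fun D' hI => by rw [hχ D' hI]; exact hψne _
  have hχnorm : ∀ D', D' ∈ normSub τ P m → χ D' = 1 := by
    intro D' hn
    rw [hχ0 D' (normSub_le τ P m hn)]
    exact hψnorm _ hn
  have hχP : ∀ D', IsInv τ D' → D' ∈ P → χ D' = 1 := by
    intro D' hI hP
    exact hχnorm D' (mem_normSub_of_mem_P τ P m (mem_invSub0.mpr ⟨hI, h.hPdeg D' hP⟩) hP)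
  have hχD : χ D ≠ 1 := by rw [hχ0 D hDI0]; exact hψD
  -- the weight
  let w : (X →₀ ℕ) → ℂ := fun E => χ (natToInt E)
  have hw0 : w 0 = 1 := by
    show χ (natToInt 0) = 1
    rw [map_zero]
    exact hχP 0 (isInv_zero τ) (zero_mem _)
  have hwmul : ∀ E E', IsInv τ E → IsInv τ E' → w (E + E') = w E * w E' := by
    intro E E' hE hE'
    show χ (natToInt (E + E')) = _
    rw [map_add]
    exact hχmul _ _ ((isInv_natToInt τ E).mpr hE) ((isInv_natToInt τ E').mpr hE')
  obtain ⟨cs, hA, hB⟩ := h.hLD w hw0 hwmul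
  -- the level one series is a polynomial
  set A : ℂ⟦X⟧ := PowerSeries.mk fun d => ∑ E ∈ h.EE d, w E with hAdef
  set B : ℂ⟦X⟧ := PowerSeries.mk fun d => ∑ E ∈ h.EE' d, w (Nm τ m E) with hBdef
  have hAvan : ∀ d, h.c ≤ d → PowerSeries.coeff d A = 0 := by
    intro d hd
    rw [hAdef, PowerSeries.coeff_mk]
    exact h.sum_eq_zero χ hχmul hχP hD hdeg hχD hd
  have hAp : A = ((PowerSeries.trunc (h.c + 1) A : Polynomial ℂ) : ℂ⟦X⟧) := by
    ext d
    rw [Polynomial.coeff_coe, PowerSeries.coeff_trunc]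
    split_ifs with hlt
    · rfl
    · exact hAvan d (by omega)
  have hp0 : (PowerSeries.trunc (h.c + 1) A : Polynomial ℂ).coeff 0 = 1 := by
    rw [PowerSeries.coeff_trunc, if_pos (Nat.succ_pos _), hAdef, PowerSeries.coeff_mk, h.EE_zero,
      Finset.sum_singleton, hw0]
  have hB0 : PowerSeries.constantCoeff B = 1 := by
    rw [← PowerSeries.coeff_zero_eq_constantCoeff_apply, hBdef, PowerSeries.coeff_mk, h.EE'_zero,
      Finset.sum_singleton, Nm_zero, hw0]
  rw [hAp] at hA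
  obtain ⟨r, hr⟩ := exists_polynomial_of_logDer_subseq _ hp0 cs hA m hm B hB0 hB
  -- but the level `m` series is not a polynomial
  set k := r.natDegree + 1 with hk
  set E2 : X →₀ ℕ := k • posPart D with hE2
  have hE2inv : IsInv (τ ^ m) E2 := (hE1.pow m).nsmul k
  have hE2mem : E2 ∈ h.EE' (k * (posPart D).degree) := by
    rw [h.mem_EE']
    exact ⟨hE2inv, by rw [hE2, map_nsmul, smul_eq_mul]⟩
  have hbig : r.natDegree < k * (posPart D).degree := by
    calc r.natDegree < k := Nat.lt_succ_self _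
      _ ≤ k * (posPart D).degree := Nat.le_mul_of_pos_right _ hd1
  have hcoeffB : PowerSeries.coeff (k * (posPart D).degree) B = 0 := by
    rw [hr, Polynomial.coeff_coe]
    exact Polynomial.coeff_eq_zero_of_natDegree_lt hbig
  have hinvNm : ∀ E : X →₀ ℕ, IsInv (τ ^ m) E → IsInv τ (Nm τ m (natToInt E)) :=
    fun E hE => isInv_Nm ((isInv_natToInt _ E).mpr hE)
  have hconst : ∀ E ∈ h.EE' (k * (posPart D).degree), w (Nm τ m E) = w (Nm τ m E2) := by
    intro E hE
    have hE' := (h.mem_EE' _ E).mp hE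
    have hE2' := (h.mem_EE' _ E2).mp hE2mem
    show χ (natToInt (Nm τ m E)) = χ (natToInt (Nm τ m E2))
    rw [natToInt_Nm, natToInt_Nm]
    have hdiff : IsInv (τ ^ m) (natToInt E - natToInt E2) :=
      ((isInv_natToInt _ E).mpr hE'.1).sub ((isInv_natToInt _ E2).mpr hE2'.1)
    have hdiff0 : (natToInt E - natToInt E2).degree = 0 := by
      rw [map_sub, degree_natToInt, degree_natToInt, hE'.2, hE2'.2, sub_self]
    have : Nm τ m (natToInt E) = Nm τ m (natToInt E2) + Nm τ m (natToInt E - natToInt E2) := by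
      rw [← Nm_add]; congr 1; abel
    rw [this, hχmul _ _ (hinvNm E2 hE2'.1) (isInv_Nm hdiff),
      hχnorm _ (Nm_mem_normSub τ P m hdiff hdiff0), mul_one]
  rw [hBdef, PowerSeries.coeff_mk, Finset.sum_congr rfl hconst, Finset.sum_const,
    nsmul_eq_mul] at hcoeffB
  rcases mul_eq_zero.mp hcoeffB with h1 | h1
  · have : (h.EE' (k * (posPart D).degree)).card ≠ 0 :=
      Finset.card_ne_zero.mpr ⟨E2, hE2mem⟩
    exact this (by exact_mod_cast h1)
  · have hE2' := (h.mem_EE' _ E2).mp hE2mem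
    apply hχne _ (hinvNm E2 hE2'.1)
    rw [← natToInt_Nm]
    exact h1

end Fermat.Agent.GJ27.Norm
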