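/-
GATE-J27 (S27) / node A6 = GJ27-NORM, second seat (helper3): LOGARITHMIC DERIVATIVES of formal power
series — step (3) of helper63's core (board 5509).  Mathlib only.

`IsLogDer A C` : `X * A' = A * C` in `𝕜⟦X⟧`.

* `IsLogDer.mul`, `isLogDer_one`, `isLogDer_multiset_prod` : additivity;
* `IsLogDer.unique`  : (char 0) `A(0) = B(0) = 1`, same logarithmic derivative ⟹ `A = B`;
* `IsLogDer.right_unique` : the logarithmic derivative of `A ≠ 0` is unique;
* `isLogDer_linear`  : `1 - a X` has logarithmic derivative `- ∑_{j ≥ 1} a^j X^j`;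
* `linProd s := ∏_{a ∈ s} (1 - a X)`, `powSum s j := - ∑_{a ∈ s} a^j` (`0` at `j = 0`):
  `isLogDer_linProd : IsLogDer (linProd s) (mk (powSum s))`;
* `exists_eq_linProd` : over an algebraically closed field every polynomial with constant
  coefficient `1` is a `linProd`;
* **`exists_polynomial_of_baseChange`** : `A` a polynomial with `A(0) = 1` and logarithmic derivative
  `mk cs`; `B` a power series with `B(0) = 1` and logarithmic derivative `mk (fun i => cs (m * i))`,
  `0 < m`  ⟹  `B` is a polynomial of degree `≤ deg A`  (`B = ∏ (1 - a_i^m X)` for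
  `A = ∏ (1 - a_i X)`);
* `not_coe_of_infinite` : a power series with infinitely many nonzero coefficients is not a
  polynomial.
-/
import Mathlib

set_option autoImplicit false

noncomputable section

open PowerSeries

namespace Fermat.Agent.GJ27.Norm.LogDer

variable {𝕜 : Type*} [Field 𝕜]

/-- `C` is the logarithmic derivative of `A` (times `X`): `X * A' = A * C`. -/
def IsLogDer (A C : 𝕜⟦X⟧) : Prop := (X : 𝕜⟦X⟧) * d⁄dX 𝕜 A = A * C

theorem isLogDer_iff {A C : 𝕜⟦X⟧} : IsLogDer A C ↔ (X : 𝕜⟦X⟧) * d⁄dX 𝕜 A = A * C := Iff.rfl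

theorem isLogDer_one : IsLogDer (1 : 𝕜⟦X⟧) 0 := by
  rw [isLogDer_iff, derivative_one, mul_zero, mul_zero]

theorem IsLogDer.mul {A B C C' : 𝕜⟦X⟧} (hA : IsLogDer A C) (hB : IsLogDer B C') :
    IsLogDer (A * B) (C + C') := by
  rw [isLogDer_iff] at hA hB ⊢
  rw [Derivation.leibniz, smul_eq_mul, smul_eq_mul]
  calc (X : 𝕜⟦X⟧) * (A * d⁄dX 𝕜 B + B * d⁄dX 𝕜 A)
      = A * ((X : 𝕜⟦X⟧) * d⁄dX 𝕜 B) + B * ((X : 𝕜⟦X⟧) * d⁄dX 𝕜 A) := by ring
    _ = A * (B * C') + B * (A * C) := by rw [hA, hB]
    _ = A * B * (C + C') := by ring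

theorem isLogDer_multiset_prod {ι : Type*} (s : Multiset ι) (A C : ι → 𝕜⟦X⟧)
    (h : ∀ i ∈ s, IsLogDer (A i) (C i)) :
    IsLogDer (s.map A).prod (s.map C).sum := by
  induction s using Multiset.induction_on with
  | empty => simpa using isLogDer_one (𝕜 := 𝕜)
  | cons i s ih =>
    rw [Multiset.map_cons, Multiset.prod_cons, Multiset.map_cons, Multiset.sum_cons]
    exact (h i (Multiset.mem_cons_self i s)).mul
      (ih fun j hj => h j (Multiset.mem_cons_of_mem hj))

/-- the logarithmic derivative of a nonzero series is unique. -/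
theorem IsLogDer.right_unique {A C C' : 𝕜⟦X⟧} (hA0 : A ≠ 0) (h : IsLogDer A C)
    (h' : IsLogDer A C') : C = C' := by
  rw [isLogDer_iff] at h h'
  exact mul_left_cancel₀ hA0 (h.symm.trans h')

/-- **Uniqueness**: two series with constant coefficient `1` and the same logarithmic derivative
are equal (characteristic zero). -/
theorem IsLogDer.unique [CharZero 𝕜] {A B C : 𝕜⟦X⟧} (hA0 : constantCoeff A = 1)
    (hB0 : constantCoeff B = 1) (hA : IsLogDer A C) (hB : IsLogDer B C) : A = B := by
  rw [isLogDer_iff] at hA hB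
  have hAne : constantCoeff A ≠ 0 := by rw [hA0]; exact one_ne_zero
  have hinv : A⁻¹ * A = 1 := PowerSeries.inv_mul_cancel A hAne
  -- `E := B / A` has derivative zero
  set E : 𝕜⟦X⟧ := B * A⁻¹ with hE
  have hXdE : (X : 𝕜⟦X⟧) * d⁄dX 𝕜 E = 0 := by
    rw [hE, Derivation.leibniz, smul_eq_mul, smul_eq_mul, derivative_inv']
    calc (X : 𝕜⟦X⟧) * (B * (-A⁻¹ ^ 2 * d⁄dX 𝕜 A) + A⁻¹ * d⁄dX 𝕜 B)
        = A⁻¹ * ((X : 𝕜⟦X⟧) * d⁄dX 𝕜 B) - B * A⁻¹ ^ 2 * ((X : 𝕜⟦X⟧) * d⁄dX 𝕜 A) := by ring
      _ = A⁻¹ * (B * C) - B * A⁻¹ ^ 2 * (A * C) := by rw [hA, hB]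
      _ = A⁻¹ * (B * C) - B * A⁻¹ * (A⁻¹ * A) * C := by ring
      _ = 0 := by rw [hinv]; ring
  have hdE : d⁄dX 𝕜 E = 0 := by
    rcases mul_eq_zero.mp hXdE with h | h
    · exact absurd h PowerSeries.X_ne_zero
    · exact h
  have hE0 : constantCoeff E = 1 := by
    rw [hE, map_mul, hB0, PowerSeries.constantCoeff_inv, hA0, inv_one, mul_one]
  have hE1 : E = 1 := by
    apply PowerSeries.derivative.ext
    · rw [hdE, derivative_one]
    · rw [hE0, map_one]
  calc A = 1 * A := (one_mul A).symm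
    _ = E * A := by rw [hE1]
    _ = B * (A⁻¹ * A) := by rw [hE]; ring
    _ = B := by rw [hinv, mul_one]

/-! ### linear factors -/

/-- `- ∑_{j ≥ 1} a^j X^j`. -/
def linSeq (a : 𝕜) : 𝕜⟦X⟧ := PowerSeries.mk fun j => if j = 0 then 0 else -(a ^ j)

theorem coeff_linSeq (a : 𝕜) (j : ℕ) :
    coeff j (linSeq a) = if j = 0 then 0 else -(a ^ j) := by
  rw [linSeq, coeff_mk]

/-- `1 - a X` has logarithmic derivative `- ∑_{j ≥ 1} a^j X^j`. -/
theorem isLogDer_linear (a : 𝕜) : IsLogDer (1 - C a * X : 𝕜⟦X⟧) (linSeq a) := by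
  rw [isLogDer_iff]
  have hd : d⁄dX 𝕜 (1 - C a * X : 𝕜⟦X⟧) = -C a := by
    rw [map_sub, derivative_one, zero_sub, Derivation.leibniz, derivative_X, derivative_C,
      smul_zero, add_zero, smul_eq_mul, mul_one]
  rw [hd]
  ext n
  have hL : coeff n ((X : 𝕜⟦X⟧) * -C a) = if n = 1 then -a else 0 := by
    rw [mul_neg, map_neg, mul_comm, coeff_C_mul, coeff_X]
    split_ifs <;> simp
  rw [hL, sub_mul, one_mul, map_sub, mul_assoc, coeff_C_mul]
  rcases n with _ | n
  · rw [coeff_zero_X_mul, coeff_linSeq]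
    simp
  · rw [coeff_succ_X_mul, coeff_linSeq, coeff_linSeq]
    rcases n with _ | n
    · simp
    · have h1 : n + 1 + 1 ≠ 1 := by omega
      have h2 : n + 1 + 1 ≠ 0 := by omega
      have h3 : n + 1 ≠ 0 := by omega
      rw [if_neg h1, if_neg h2, if_neg h3]
      ring

/-- `powSum s j = - ∑_{a ∈ s} a^j` for `j ≥ 1`, and `0` for `j = 0`. -/
def powSum (s : Multiset 𝕜) (j : ℕ) : 𝕜 := if j = 0 then 0 else -(s.map (· ^ j)).sum

/-- `∏_{a ∈ s} (1 - a X)`. -/
def linProd (s : Multiset 𝕜) : 𝕜⟦X⟧ := (s.map fun a => (1 - C a * X : 𝕜⟦X⟧)).prod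

theorem linProd_zero : linProd (0 : Multiset 𝕜) = 1 := by simp [linProd]

theorem linProd_cons (a : 𝕜) (s : Multiset 𝕜) :
    linProd (a ::ₘ s) = (1 - C a * X) * linProd s := by
  simp [linProd]

theorem constantCoeff_linProd (s : Multiset 𝕜) : constantCoeff (linProd s) = 1 := by
  induction s using Multiset.induction_on with
  | empty => simp [linProd_zero]
  | cons a s ih => rw [linProd_cons, map_mul, ih]; simp

theorem linProd_ne_zero (s : Multiset 𝕜) : linProd s ≠ 0 := by
  intro h
  have := constantCoeff_linProd s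
  rw [h, map_zero] at this
  exact zero_ne_one this

theorem sum_map_linSeq (s : Multiset 𝕜) : (s.map linSeq).sum = PowerSeries.mk (powSum s) := by
  induction s using Multiset.induction_on with
  | empty =>
    ext j
    simp [powSum]
  | cons a s ih =>
    rw [Multiset.map_cons, Multiset.sum_cons, ih]
    ext j
    rw [map_add, coeff_linSeq, coeff_mk, coeff_mk, powSum, powSum]
    by_cases hj : j = 0
    · simp [hj]
    · rw [if_neg hj, if_neg hj, if_neg hj, Multiset.map_cons, Multiset.sum_cons]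
      ring

/-- **the logarithmic derivative of `∏ (1 - a X)`** is `- ∑_j (∑_a a^j) X^j`. -/
theorem isLogDer_linProd (s : Multiset 𝕜) : IsLogDer (linProd s) (PowerSeries.mk (powSum s)) := by
  rw [← sum_map_linSeq]
  exact isLogDer_multiset_prod s _ _ fun a _ => isLogDer_linear a

theorem powSum_map_pow (s : Multiset 𝕜) {m : ℕ} (hm : 0 < m) (i : ℕ) :
    powSum (s.map (· ^ m)) i = powSum s (m * i) := by
  rw [powSum, powSum]
  by_cases hi : i = 0
  · simp [hi]
  · have hmi : m * i ≠ 0 := Nat.mul_ne_zero (Nat.pos_iff_ne_zero.mp hm) hi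
    rw [if_neg hi, if_neg hmi, Multiset.map_map]
    congr 2
    refine Multiset.map_congr rfl fun a _ => ?_
    simp only [Function.comp_apply]
    rw [← pow_mul]

/-- `linProd s` is a polynomial of degree `≤ card s`. -/
theorem exists_polynomial_eq_linProd (s : Multiset 𝕜) :
    ∃ P : Polynomial 𝕜, (P : 𝕜⟦X⟧) = linProd s ∧ P.natDegree ≤ Multiset.card s := by
  induction s using Multiset.induction_on with
  | empty => exact ⟨1, by simp [linProd_zero], by simp⟩
  | cons a s ih =>
    obtain ⟨P, hP, hdeg⟩ := ih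
    refine ⟨(1 - Polynomial.C a * Polynomial.X) * P, ?_, ?_⟩
    · rw [linProd_cons, ← hP]
      simp
    · rw [Multiset.card_cons]
      refine (Polynomial.natDegree_mul_le).trans ?_
      have h1 : (1 - Polynomial.C a * Polynomial.X : Polynomial 𝕜).natDegree ≤ 1 := by
        refine (Polynomial.natDegree_sub_le _ _).trans ?_
        rw [Polynomial.natDegree_one, max_eq_right (Nat.zero_le _)]
        exact (Polynomial.natDegree_C_mul_le a Polynomial.X).trans Polynomial.natDegree_X_le
      omega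

/-! ### polynomials with constant coefficient one -/

/-- over an algebraically closed field a polynomial with constant coefficient `1` is a product of
factors `1 - a X`. -/
theorem exists_eq_linProd [IsAlgClosed 𝕜] (A : Polynomial 𝕜) (hA : A.coeff 0 = 1) :
    ∃ s : Multiset 𝕜, (A : 𝕜⟦X⟧) = linProd s ∧ Multiset.card s = A.natDegree := by
  classical
  have hsplit : A.Splits := IsAlgClosed.splits A
  have hA0 : A ≠ 0 := by
    rintro rfl
    simp at hA
  have hroots0 : ∀ r ∈ A.roots, r ≠ 0 := by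
    intro r hr h0
    rw [h0, Polynomial.mem_roots hA0, Polynomial.IsRoot, ← Polynomial.coeff_zero_eq_eval_zero,
      hA] at hr
    exact one_ne_zero hr
  have hfac : A = Polynomial.C A.leadingCoeff *
      (A.roots.map fun r => Polynomial.X - Polynomial.C r).prod :=
    hsplit.eq_prod_roots
  -- rewrite each factor
  have hfactor : ∀ r ∈ A.roots, (Polynomial.X - Polynomial.C r : Polynomial 𝕜) =
      Polynomial.C (-r) * (1 - Polynomial.C r⁻¹ * Polynomial.X) := by
    intro r hr
    have hr0 := hroots0 r hr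
    rw [mul_sub, mul_one, ← mul_assoc, ← Polynomial.C_mul, neg_mul, mul_inv_cancel₀ hr0]
    simp only [map_neg, map_one, neg_mul, one_mul, sub_neg_eq_add]
    ring
  have hprod : (A.roots.map fun r => (Polynomial.X - Polynomial.C r : Polynomial 𝕜)).prod =
      Polynomial.C (A.roots.map fun r => -r).prod *
        (A.roots.map fun r => (1 - Polynomial.C r⁻¹ * Polynomial.X : Polynomial 𝕜)).prod := by
    rw [Multiset.map_congr rfl hfactor, Multiset.prod_map_mul]
    congr 1
    rw [map_multiset_prod, Multiset.map_map]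
    rfl
  set c : 𝕜 := A.leadingCoeff * (A.roots.map fun r => -r).prod with hc
  have hA' : A = Polynomial.C c *
      (A.roots.map fun r => (1 - Polynomial.C r⁻¹ * Polynomial.X : Polynomial 𝕜)).prod := by
    conv_lhs => rw [hfac, hprod]
    rw [hc, Polynomial.C_mul]
    ring
  -- the constant `c` is `1`
  have hcoe : (A : 𝕜⟦X⟧) = PowerSeries.C c * linProd (A.roots.map fun r => r⁻¹) := by
    conv_lhs => rw [hA']
    rw [Polynomial.coe_mul, Polynomial.coe_C, linProd, Multiset.map_map]
    congr 1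
    rw [← Polynomial.coeToPowerSeries.ringHom_apply, map_multiset_prod, Multiset.map_map]
    refine congrArg Multiset.prod (Multiset.map_congr rfl fun r _ => ?_)
    simp
  have hc1 : c = 1 := by
    have h1 := congrArg (PowerSeries.constantCoeff (R := 𝕜)) hcoe
    rw [map_mul, constantCoeff_linProd, mul_one, PowerSeries.constantCoeff_C] at h1
    rw [← h1, ← PowerSeries.coeff_zero_eq_constantCoeff_apply, Polynomial.coeff_coe, hA]
  refine ⟨A.roots.map fun r => r⁻¹, ?_, ?_⟩
  · rw [hcoe, hc1, map_one, one_mul]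
  · rw [Multiset.card_map]
    exact hsplit.natDegree_eq_card_roots.symm

/-! ### base change -/

/-- **Base change of a polynomial `L`-function.**  If `A` is a polynomial with `A(0) = 1` and
logarithmic derivative `∑ cs_j X^j`, and `B` is a power series with `B(0) = 1` and logarithmic
derivative `∑ cs_{m i} X^i` (`0 < m`), then `B` is a polynomial of degree `≤ deg A`. -/
theorem exists_polynomial_of_baseChange [IsAlgClosed 𝕜] [CharZero 𝕜] (A : Polynomial 𝕜)
    (hA0 : A.coeff 0 = 1) (cs : ℕ → 𝕜) (hA : IsLogDer (A : 𝕜⟦X⟧) (PowerSeries.mk cs))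
    (B : 𝕜⟦X⟧) (hB0 : constantCoeff B = 1) {m : ℕ} (hm : 0 < m)
    (hB : IsLogDer B (PowerSeries.mk fun i => cs (m * i))) :
    ∃ P : Polynomial 𝕜, (P : 𝕜⟦X⟧) = B ∧ P.natDegree ≤ A.natDegree := by
  obtain ⟨s, hs, hcard⟩ := exists_eq_linProd A hA0
  -- `cs = powSum s`
  have hcs : PowerSeries.mk cs = PowerSeries.mk (powSum s) := by
    refine IsLogDer.right_unique (A := linProd s) (linProd_ne_zero s) ?_ (isLogDer_linProd s)
    rw [← hs]
    exact hA
  have hcs' : ∀ j, cs j = powSum s j := fun j => by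
    have := congrArg (coeff j) hcs
    rwa [coeff_mk, coeff_mk] at this
  -- `B = linProd (s.map (· ^ m))`
  have hB' : IsLogDer B (PowerSeries.mk (powSum (s.map (· ^ m)))) := by
    have : (PowerSeries.mk fun i => cs (m * i)) = PowerSeries.mk (powSum (s.map (· ^ m))) := by
      ext i
      rw [coeff_mk, coeff_mk, hcs', powSum_map_pow s hm]
    rwa [this] at hB
  have hBeq : B = linProd (s.map (· ^ m)) :=
    IsLogDer.unique hB0 (constantCoeff_linProd _) hB' (isLogDer_linProd _)
  obtain ⟨P, hP, hdeg⟩ := exists_polynomial_eq_linProd (s.map (· ^ m))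
  refine ⟨P, by rw [hP, hBeq], ?_⟩
  rw [Multiset.card_map, hcard] at hdeg
  exact hdeg

/-- the explicit form: `B = ∏ (1 - a^m X)` when `A = ∏ (1 - a X)`. -/
theorem eq_linProd_of_baseChange [CharZero 𝕜] (s : Multiset 𝕜) (B : 𝕜⟦X⟧)
    (hB0 : constantCoeff B = 1) {m : ℕ} (hm : 0 < m)
    (hB : IsLogDer B (PowerSeries.mk fun i => powSum s (m * i))) :
    B = linProd (s.map (· ^ m)) := by
  have hB' : IsLogDer B (PowerSeries.mk (powSum (s.map (· ^ m)))) := by
    have : (PowerSeries.mk fun i => powSum s (m * i)) =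
        PowerSeries.mk (powSum (s.map (· ^ m))) := by
      ext i
      rw [coeff_mk, coeff_mk, powSum_map_pow s hm]
    rwa [this] at hB
  exact IsLogDer.unique hB0 (constantCoeff_linProd _) hB' (isLogDer_linProd _)

/-! ### non-polynomiality -/

/-- a power series with infinitely many nonzero coefficients is not a polynomial. -/
theorem not_coe_of_infinite {B : 𝕜⟦X⟧} (h : {d : ℕ | coeff d B ≠ 0}.Infinite)
    (P : Polynomial 𝕜) : (P : 𝕜⟦X⟧) ≠ B := by
  intro hP
  apply h
  refine (Finset.range (P.natDegree + 1)).finite_toSet.subset fun d hd => ?_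
  rw [Finset.mem_coe, Finset.mem_range]
  by_contra hlt
  apply hd
  rw [← hP, Polynomial.coeff_coe]
  exact Polynomial.coeff_eq_zero_of_natDegree_lt (by omega)

end Fermat.Agent.GJ27.Norm.LogDer
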