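/-
GATE-J27 (S27) / node A6 `GJ27-NORM` (helper63): the binder `hA6` of helper47's
`Count.countStmt_of_nodes` (`GJ27/Count/Contract.lean`) VERBATIM, discharged by
`Norm.Final.norm_surjective_frobStr` (helper68) = `Norm.norm_surjective` (`Plug.lean`) + helper56's H90.
-/
import Mathlib
import Fermat.Agent.GJ27.Count.Contract
import Fermat.Agent.GJ27.Norm.Final

set_option autoImplicit false

noncomputable section

open AlgebraicCurve

namespace Fermat.Agent.GJ27.Norm

open Fermat.Agent.RRh45 Fermat.Agent.S24 Fermat.Agent.GJ27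

universe u

/-- `NormStmt Φ` in the `CountStmt` frame. -/
theorem normStmt {p : ℕ} [Fact p.Prime] {k Ft : Type*} [Field k] [Field Ft] [Algebra k Ft]
    [IsAlgClosed k] [CharP k p] [FiniteResidues k Ft] [HasPrincipalDivisors k Ft]
    [Nonempty (Place k Ft)] (Φ : FrobStr p k Ft) (g : ℕ) (c : ℤ)
    (hRiem : ∀ E : Divisor k Ft, c ≤ Divisor.degree E →
      (Module.finrank k (riemannRochSpace E) : ℤ) = Divisor.degree E + 1 - g) :
    Count.NormStmt Φ :=
  fun n m hn hm x hx => Final.norm_surjective_frobStr Φ g c hRiem n m hn hm x hx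

/-- **the binder `hA6` of `Count.countStmt_of_nodes`, verbatim.** -/
theorem normStmt_all :
    ∀ (p : ℕ) [Fact p.Prime] (k Ft : Type u) [Field k] [Field Ft] [Algebra k Ft]
      [IsAlgClosed k] [CharP k p] [FiniteResidues k Ft] [HasPrincipalDivisors k Ft]
      [Nonempty (Place k Ft)] (Φ : FrobStr p k Ft) (x₀ : Ft) [IsGen k x₀] (g : ℕ) (c : ℤ)
      (_ : ∀ Q : Place k Ft, Q.deg = 1)
      (_ : ∀ E : Divisor k Ft, c ≤ Divisor.degree E →
        (Module.finrank k (riemannRochSpace E) : ℤ) = Divisor.degree E + 1 - g),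
      Count.NormStmt Φ :=
  fun _ _ _ _ _ _ _ _ _ _ _ _ Φ _ _ g c _ hRiem => normStmt Φ g c hRiem

/-- `CountStmt` with only the `A4` binder left. -/
theorem countStmt_of_lPoly
    (hA4 : ∀ (p : ℕ) [Fact p.Prime] (k Ft : Type u) [Field k] [Field Ft] [Algebra k Ft]
      [IsAlgClosed k] [CharP k p] [FiniteResidues k Ft] [HasPrincipalDivisors k Ft]
      [Nonempty (Place k Ft)] (Φ : FrobStr p k Ft) (x₀ : Ft) [IsGen k x₀] (g : ℕ) (c : ℤ)
      (hdeg : ∀ Q : Place k Ft, Q.deg = 1)
      (_ : ∀ E : Divisor k Ft, c ≤ Divisor.degree E →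
        (Module.finrank k (riemannRochSpace E) : ℤ) = Divisor.degree E + 1 - g),
      Count.LPolyStmt Φ g (Count.hfinPerm Φ hdeg)) :
    CountStmt.{u} :=
  Count.countStmt_of_nodes hA4 normStmt_all

end Fermat.Agent.GJ27.Norm
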