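/-
GATE-J27 (S27) / node A6 = GJ27-NORM, the binder of A8 (helper68): `Count.NormStmt Φ` (helper47's
`GJ27/Count/Contract.lean`) is a THEOREM in the `CountStmt` frame, and the `hA6` argument of
`Count.countStmt_of_nodes` verbatim (`hA6_countStmt`).
-/
import Mathlib
import Fermat.Agent.GJ27.Count.Contract
import Fermat.Agent.GJ27.Norm.Final

set_option autoImplicit false

noncomputable section

open AlgebraicCurve

namespace Fermat.Agent.GJ27.Norm.NormStmtThm

open Fermat.Agent.RRh45 Fermat.Agent.S24 Fermat.Agent.GJ27 Fermat.Agent.GJ27.Count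

universe u

/-- **A6 in the shape of A8's contract**: `NormStmt Φ` for every Frobenius structure in the
`CountStmt` frame (Riemann's theorem with constants `(gen, c)`). -/
theorem normStmt {p : ℕ} [Fact p.Prime] {k Ft : Type*} [Field k] [Field Ft] [Algebra k Ft]
    [IsAlgClosed k] [CharP k p] [FiniteResidues k Ft] [HasPrincipalDivisors k Ft]
    [Nonempty (Place k Ft)] (Φ : FrobStr p k Ft) (gen : ℕ) (c : ℤ)
    (hRiem : ∀ E : Divisor k Ft, c ≤ Divisor.degree E →
      (Module.finrank k (riemannRochSpace E) : ℤ) = Divisor.degree E + 1 - gen) :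
    NormStmt Φ :=
  fun n m hn hm x hx =>
    Fermat.Agent.GJ27.Norm.Final.norm_surjective_frobStr Φ gen c hRiem n m hn hm x hx

/-- the `hA6` argument of `Count.countStmt_of_nodes`, verbatim. -/
theorem hA6_countStmt :
    ∀ (p : ℕ) [Fact p.Prime] (k Ft : Type u) [Field k] [Field Ft] [Algebra k Ft]
      [IsAlgClosed k] [CharP k p] [FiniteResidues k Ft] [HasPrincipalDivisors k Ft]
      [Nonempty (Place k Ft)] (Φ : FrobStr p k Ft) (x₀ : Ft) [IsGen k x₀] (g : ℕ) (c : ℤ)
      (_ : ∀ Q : Place k Ft, Q.deg = 1)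
      (_ : ∀ E : Divisor k Ft, c ≤ Divisor.degree E →
        (Module.finrank k (riemannRochSpace E) : ℤ) = Divisor.degree E + 1 - g),
      NormStmt Φ :=
  fun _ _ _ _ _ _ _ _ _ _ _ _ Φ _ _ g c _ hRiem => normStmt Φ g c hRiem

end Fermat.Agent.GJ27.Norm.NormStmtThm
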