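/-
GATE-J27 (S27) / node A6 `GJ27-NORM` (helper63) — file 4: the `CoreHyp` of `Core.lean` from
helper94's `ZComb` frame and helper68's `Bridge.hLD_pair`.

Input: a permutation `τ` with finitely many fixed points of every positive power, a `τ`-stable
subgroup `P` of degree-zero divisors, and the counting hypothesis.  Output: `CoreHyp τ P m`, hence
(`exists_norm_preimage_of_count`) the norm surjectivity statement.
-/
import Mathlib
import Fermat.Agent.GJ27.ZComb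
import Fermat.Agent.GJ27.Norm.Bridge
import Fermat.Agent.GJ27.Norm.Core

set_option autoImplicit false

noncomputable section

namespace Fermat.Agent.GJ27.Norm

open Function

variable {X : Type*}

/-- the hypotheses of the core from the `ZComb` frame. -/
def coreHypOfCount (τ : Equiv.Perm X)
    (hfin : ∀ j, 0 < j → (fixedPoints ⇑(τ ^ j)).Finite)
    (P : AddSubgroup (X →₀ ℤ)) (hPdeg : ∀ D ∈ P, D.degree = 0)
    (hPτ : ∀ D ∈ P, Finsupp.mapDomain τ D ∈ P) (m : ℕ) (hm : 0 < m) (c : ℕ) (κ : ℕ → ℕ)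
    (hcount : ∀ d, c ≤ d → ∀ D : X →₀ ℤ, IsInv τ D → D.degree = (d : ℤ) →
      Nat.card {E : X →₀ ℕ // IsInv τ E ∧ natToInt E - D ∈ P} = κ d) :
    CoreHyp τ P m where
  hPdeg := hPdeg
  hPτ := hPτ
  EE := ZComb.invEffFin τ hfin
  EE' := ZComb.invEffFin (τ ^ m) (Bridge.hfin_pow τ m hfin hm)
  mem_EE := fun _ _ => ZComb.mem_invEffFin τ hfin
  mem_EE' := fun _ _ => ZComb.mem_invEffFin (τ ^ m) (Bridge.hfin_pow τ m hfin hm)
  c := c
  κ := κ
  hcount := hcount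
  hLD := fun _ hw0 hwadd =>
    Bridge.hLD_pair τ m hfin (Bridge.hfin_pow τ m hfin hm) hm hw0 hwadd

/-- **Norm surjectivity in the `ZComb` frame.** -/
theorem exists_norm_preimage_of_count (τ : Equiv.Perm X)
    (hfin : ∀ j, 0 < j → (fixedPoints ⇑(τ ^ j)).Finite)
    (P : AddSubgroup (X →₀ ℤ)) (hPdeg : ∀ D ∈ P, D.degree = 0)
    (hPτ : ∀ D ∈ P, Finsupp.mapDomain τ D ∈ P) (m : ℕ) (hm : 0 < m) (c : ℕ) (κ : ℕ → ℕ)
    (hcount : ∀ d, c ≤ d → ∀ D : X →₀ ℤ, IsInv τ D → D.degree = (d : ℤ) →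
      Nat.card {E : X →₀ ℕ // IsInv τ E ∧ natToInt E - D ∈ P} = κ d)
    (D : X →₀ ℤ) (hD : IsInv τ D) (hdeg : D.degree = 0) :
    ∃ E : X →₀ ℤ, IsInv (τ ^ m) E ∧ E.degree = 0 ∧ Nm τ m E - D ∈ P :=
  exists_norm_preimage (coreHypOfCount τ hfin P hPdeg hPτ m hm c κ hcount) hm D hD hdeg

end Fermat.Agent.GJ27.Norm
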