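/-
GATE-J27 (S27) / node A6 `GJ27-NORM` (helper63) — file 5: the frame plug.

Frame: helper3's `FrobData p k Ft` (`g : SemilinearAut k Ft` inducing `a ↦ a ^ q` on the
algebraically closed constant field `k` of characteristic `p`, all orbits on `Ft` finite), helper56's
count of invariant effective divisors in an invariant class (`Desc/InvEff.card_invEff_mul`), Riemann's
theorem `ℓ(E) = deg E + 1 - gen` for `deg E ≥ c`.

**`norm_surjective`** (Lang's theorem for `Pic⁰`): for `0 < n`, `0 < m` the norm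
`∑_{i<m} g^{n i} : Pic⁰^{g^{nm}} → Pic⁰^{g^n}` is surjective.

The only binder is `hH90`: every `g ^ n`-invariant class of `Pic⁰` contains a `g ^ n`-invariant divisor
(node A1).
-/
import Mathlib
import Fermat.Agent.GJ27.Desc.InvEff
import Fermat.Agent.GJ27.Norm.OfZComb

set_option autoImplicit false

noncomputable section

open AlgebraicCurve

namespace Fermat.Agent.GJ27.Norm

open Fermat.Agent.RRh45 Fermat.Agent.S24 Fermat.Agent.GJ27.Frob Fermat.Agent.GJ27.Desc

variable {p : ℕ} {k Ft : Type*} [Field k] [Field Ft] [Algebra k Ft]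

section Perm

variable (Φ : FrobData p k Ft)

theorem mapDomain_perm_pow (i : ℕ) (D : Divisor k Ft) :
    Finsupp.mapDomain (⇑(Φ.perm ^ i)) D = (Φ.g ^ i) • D := by
  rw [SemilinearAut.divisor_smul_def]
  congr 1
  funext v
  exact Φ.perm_pow_apply i v

theorem mapDomain_perm (D : Divisor k Ft) : Finsupp.mapDomain (⇑Φ.perm) D = Φ.g • D := by
  rw [SemilinearAut.divisor_smul_def]
  rfl

theorem isInv_perm_pow_iff (i : ℕ) (D : Divisor k Ft) :
    IsInv (Φ.perm ^ i) D ↔ (Φ.g ^ i) • D = D := by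
  rw [isInv_iff_mapDomain, mapDomain_perm_pow]

theorem isInv_perm_iff (D : Divisor k Ft) : IsInv Φ.perm D ↔ Φ.g • D = D := by
  rw [isInv_iff_mapDomain, mapDomain_perm]

theorem Nm_perm (m : ℕ) (D : Divisor k Ft) :
    Nm Φ.perm m D = ∑ i ∈ Finset.range m, (Φ.g ^ i) • D := by
  rw [Nm]
  exact Finset.sum_congr rfl fun i _ => mapDomain_perm_pow Φ i D

end Perm

/-- when all places have degree one the degree of a divisor is the sum of its coefficients. -/
theorem degree_eq_finsupp_degree (hdeg : ∀ v : Place k Ft, v.deg = 1) (D : Divisor k Ft) :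
    Divisor.degree D = Finsupp.degree D := by
  induction D using Finsupp.induction with
  | zero => simp
  | single_add v n D _ _ ih =>
    rw [map_add, map_add, ih, Divisor.degree_single, hdeg v, Finsupp.degree_single]
    simp

theorem natToInt_nonneg (E : Place k Ft →₀ ℕ) : (0 : Divisor k Ft) ≤ natToInt E := by
  intro v
  rw [natToInt_apply]
  exact Int.natCast_nonneg _

theorem natToInt_posPart_of_nonneg {E : Divisor k Ft} (hE : 0 ≤ E) : natToInt (posPart E) = E := by
  ext v
  rw [natToInt_apply, posPart_apply]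
  exact Int.toNat_of_nonneg (hE v)

theorem posPart_natToInt {X : Type*} (E : X →₀ ℕ) : posPart (natToInt E) = E := by
  ext v
  rw [posPart_apply, natToInt_apply, Int.toNat_natCast]

section Count

variable [HasPrincipalDivisors k Ft] [Fact p.Prime] [CharP k p] [IsAlgClosed k]
  [FiniteResidues k Ft] [Nonempty (Place k Ft)]

variable (Φ : FrobData p k Ft)

omit [Fact p.Prime] [CharP k p] [Nonempty (Place k Ft)] in
/-- principal divisors have degree zero. -/
theorem finsupp_degree_of_mem_principal {D : Divisor k Ft}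
    (hD : D ∈ Divisor.principal (K := k) (F := Ft)) : Finsupp.degree D = 0 := by
  obtain ⟨x, hx, h⟩ := hD
  rw [← degree_eq_finsupp_degree (fun v => deg_eq_one v), eq_dv_of_forall hx h]
  exact degree_dv x

/-- helper56's count for effective divisors `Place k Ft →₀ ℕ`. -/
theorem card_invEff_nat (D : Divisor k Ft) (hD : Φ.g • D = D) :
    Nat.card {E : Place k Ft →₀ ℕ // IsInv Φ.perm E ∧
        natToInt E - D ∈ Divisor.principal (K := k) (F := Ft)} * (p ^ Φ.f - 1) =
      (p ^ Φ.f) ^ Module.finrank k (riemannRochSpace D) - 1 := by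
  rw [← card_invEff_mul Φ D hD]
  congr 1
  apply Nat.card_congr
  refine
    { toFun := fun E => ⟨natToInt E.1, natToInt_nonneg E.1,
        (isInv_perm_iff Φ _).mp ((isInv_natToInt _ _).mpr E.2.1), E.2.2⟩
      invFun := fun E => ⟨posPart E.1, ((isInv_perm_iff Φ _).mpr E.2.2.1).posPart, ?_⟩
      left_inv := fun E => Subtype.ext (posPart_natToInt E.1)
      right_inv := fun E => Subtype.ext (natToInt_posPart_of_nonneg E.2.1) }
  rw [natToInt_posPart_of_nonneg E.2.1]
  exact E.2.2.2

/-- the number of invariant effective divisors in an invariant class of degree `d` above the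
Riemann threshold. -/
def kappa (q gen : ℕ) (d : ℕ) : ℕ := (q ^ ((d : ℤ) + 1 - gen).toNat - 1) / (q - 1)

/-- the counting hypothesis of the core. -/
theorem hcount_of_riemann (gen : ℕ) (c : ℤ)
    (hRiem : ∀ E : Divisor k Ft, c ≤ Divisor.degree E →
      (Module.finrank k (riemannRochSpace E) : ℤ) = Divisor.degree E + 1 - gen)
    (d : ℕ) (hd : c.toNat ≤ d) (D : Place k Ft →₀ ℤ) (hD : IsInv Φ.perm D)
    (hdeg : Finsupp.degree D = (d : ℤ)) :
    Nat.card {E : Place k Ft →₀ ℕ // IsInv Φ.perm E ∧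
        natToInt E - D ∈ Divisor.principal (K := k) (F := Ft)} = kappa (p ^ Φ.f) gen d := by
  have hD' : Φ.g • (D : Divisor k Ft) = D := (isInv_perm_iff Φ D).mp hD
  have hdeg' : Divisor.degree (D : Divisor k Ft) = (d : ℤ) := by
    rw [degree_eq_finsupp_degree (fun v => deg_eq_one v), hdeg]
  have hcd : c ≤ Divisor.degree (D : Divisor k Ft) := by
    rw [hdeg']
    omega
  have hl := hRiem D hcd
  rw [hdeg'] at hl
  have hl' : Module.finrank k (riemannRochSpace (D : Divisor k Ft))
      = ((d : ℤ) + 1 - gen).toNat := by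
    rw [← hl, Int.toNat_natCast]
  have h1 := card_invEff_nat Φ D hD'
  rw [hl'] at h1
  have hq : 1 < p ^ Φ.f :=
    Nat.one_lt_pow (Nat.pos_iff_ne_zero.mp Φ.hf) (Fact.out : p.Prime).one_lt
  rw [kappa]
  exact (Nat.div_eq_of_eq_mul_left (by omega) h1.symm).symm

/-- **Lang's theorem, level one.** -/
theorem norm_surjective_one (gen : ℕ) (c : ℤ)
    (hRiem : ∀ E : Divisor k Ft, c ≤ Divisor.degree E →
      (Module.finrank k (riemannRochSpace E) : ℤ) = Divisor.degree E + 1 - gen)
    (m : ℕ) (hm : 0 < m) (D : Divisor.degZero (K := k) (F := Ft))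
    (hD : Φ.g • (D : Divisor k Ft) = D) :
    ∃ y : Pic0 k Ft, (Φ.g ^ m) • y = y ∧ ∑ i ∈ Finset.range m, (Φ.g ^ i) • y = Pic0.mk D := by
  have hdeg1 : ∀ v : Place k Ft, v.deg = 1 := fun v => deg_eq_one v
  have hp : 1 < p := (Fact.out : p.Prime).one_lt
  have hfin : ∀ j, 0 < j → (Function.fixedPoints ⇑(Φ.perm ^ j)).Finite :=
    fun j hj => Φ.finite_perm_pow_fixed hp hdeg1 j hj
  have hDdeg : Finsupp.degree (D : Divisor k Ft) = 0 := by
    rw [← degree_eq_finsupp_degree hdeg1]
    exact D.2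
  obtain ⟨E, hEinv, hEdeg, hEP⟩ := exists_norm_preimage_of_count Φ.perm hfin
    (Divisor.principal (K := k) (F := Ft))
    (fun D hD => finsupp_degree_of_mem_principal hD)
    (fun D hD => by
      rw [mapDomain_perm]
      exact SemilinearAut.smul_mem_principal Φ.g hD)
    m hm c.toNat (kappa (p ^ Φ.f) gen)
    (fun d hd D hD hdeg => hcount_of_riemann Φ gen c hRiem d hd D hD hdeg)
    (D : Divisor k Ft) ((isInv_perm_iff Φ _).mpr hD) hDdeg
  have hE0 : E ∈ Divisor.degZero (K := k) (F := Ft) := by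
    rw [Divisor.mem_degZero, degree_eq_finsupp_degree hdeg1, hEdeg]
  have hEm : (Φ.g ^ m) • (E : Divisor k Ft) = E := (isInv_perm_pow_iff Φ m E).mp hEinv
  refine ⟨Pic0.mk ⟨E, hE0⟩, ?_, ?_⟩
  · rw [SemilinearAut.pic0_smul_mk]
    congr 1
    exact Subtype.ext hEm
  · have h1 : ∀ i ∈ Finset.range m, (Φ.g ^ i) • Pic0.mk ⟨E, hE0⟩
        = QuotientAddGroup.mk' _ (SemilinearAut.degZeroSMulHom (Φ.g ^ i) ⟨E, hE0⟩) :=
      fun i _ => rfl
    rw [Finset.sum_congr rfl h1, ← map_sum]
    show (QuotientAddGroup.mk _ : Pic0 k Ft) = QuotientAddGroup.mk D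
    rw [QuotientAddGroup.eq_iff_sub_mem, AddSubgroup.mem_addSubgroupOf]
    have h2 : (((∑ i ∈ Finset.range m, SemilinearAut.degZeroSMulHom (Φ.g ^ i) ⟨E, hE0⟩) - D :
        Divisor.degZero (K := k) (F := Ft)) : Divisor k Ft) = Nm Φ.perm m E - D := by
      rw [AddSubgroup.coe_sub, AddSubgroup.val_finsetSum, Nm_perm]
      rfl
    rw [h2]
    exact hEP

/-- **Lang's theorem for `Pic⁰`**: the norm `Pic⁰^{g^{nm}} → Pic⁰^{g^n}` is surjective.  Binder:
every `g ^ n`-invariant class contains a `g ^ n`-invariant divisor (node A1). -/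
theorem norm_surjective (gen : ℕ) (c : ℤ)
    (hRiem : ∀ E : Divisor k Ft, c ≤ Divisor.degree E →
      (Module.finrank k (riemannRochSpace E) : ℤ) = Divisor.degree E + 1 - gen)
    (hH90 : ∀ n, 0 < n → ∀ x : Pic0 k Ft, (Φ.g ^ n) • x = x →
      ∃ D : Divisor.degZero (K := k) (F := Ft),
        (Φ.g ^ n) • (D : Divisor k Ft) = D ∧ Pic0.mk D = x)
    (n m : ℕ) (hn : 0 < n) (hm : 0 < m) (x : Pic0 k Ft) (hx : (Φ.g ^ n) • x = x) :
    ∃ y : Pic0 k Ft, (Φ.g ^ (n * m)) • y = y ∧
      ∑ i ∈ Finset.range m, (Φ.g ^ (n * i)) • y = x := by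
  obtain ⟨D, hD, rfl⟩ := hH90 n hn x hx
  obtain ⟨y, hy1, hy2⟩ := norm_surjective_one (Φ.pow n hn) gen c hRiem m hm D hD
  refine ⟨y, ?_, ?_⟩
  · rw [pow_mul]
    exact hy1
  · rw [← hy2]
    exact Finset.sum_congr rfl fun i _ => by rw [pow_mul]; rfl

end Count

end Fermat.Agent.GJ27.Norm
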